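import Mathlib.Algebra.Polynomial.Roots
import Mathlib.LinearAlgebra.Matrix.GeneralLinearGroup.Defs
import Mathlib.Tactic
import Fermat.Agent.Gal.RepTwo

/-!
# Semisimple finite groups of `GL₂` with few characteristic polynomials

Semisimplification of a two-dimensional representation, and a bound on the order of a semisimple
finite image most of whose elements have a (trace, determinant) in a given finite set. This bounds
the images modulo `ℓ` of the representations attached to a weight-one eigenform.
-/

noncomputable section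

namespace Fermat.Agent.WeightOneGalois

open Matrix
open scoped Classical

variable {Γ : Type*} [Group Γ] {k : Type*} [Field k]

/-- Diagonal matrices. -/
def diagHom (R : Type*) [CommRing R] : Rˣ × Rˣ →* GL (Fin 2) R where
  toFun x := ⟨!![(x.1 : R), 0; 0, (x.2 : R)], !![(↑x.1⁻¹ : R), 0; 0, (↑x.2⁻¹ : R)],
    by simp [Matrix.one_fin_two], by simp [Matrix.one_fin_two]⟩
  map_one' := Units.ext (by simp [Matrix.one_fin_two])
  map_mul' x y := Units.ext (by simp)

theorem val_diagHom (R : Type*) [CommRing R] (x : Rˣ × Rˣ) :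
    (diagHom R x : Matrix (Fin 2) (Fin 2) R) = !![(x.1 : R), 0; 0, (x.2 : R)] := rfl

/-- Semisimple: no stable line, or contained in the diagonal matrices. -/
def IsSS (r : Γ →* GL (Fin 2) k) : Prop :=
  (∀ v : Fin 2 → k, v ≠ 0 → ∃ g, ∀ c : k, (r g : Matrix (Fin 2) (Fin 2) k) *ᵥ v ≠ c • v) ∨
    ∃ χ : Γ →* kˣ × kˣ, r = (diagHom k).comp χ

/-- Semisimplification keeps trace, determinant and kernel. -/
theorem exists_isSS (τ : Γ →* GL (Fin 2) k) : ∃ r : Γ →* GL (Fin 2) k, IsSS r ∧
    (∀ g, τ g = 1 → r g = 1) ∧ ∀ g,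
      (r g : Matrix (Fin 2) (Fin 2) k).trace = (τ g : Matrix (Fin 2) (Fin 2) k).trace ∧
      (r g : Matrix (Fin 2) (Fin 2) k).det = (τ g : Matrix (Fin 2) (Fin 2) k).det := by
  by_cases h : ∀ v : Fin 2 → k, v ≠ 0 → ∃ g, ∀ c : k, (τ g : Matrix (Fin 2) (Fin 2) k) *ᵥ v ≠ c • v
  · exact ⟨τ, Or.inl h, fun g hg => hg, fun g => ⟨rfl, rfl⟩⟩
  push Not at h
  obtain ⟨v, hv, hline⟩ := h
  choose c hc using hline
  have huniq : ∀ a b : k, a • v = b • v → a = b := fun a b e => smul_left_injective k hv e
  have hmul : ∀ g g', c (g * g') = c g * c g' := fun g g' => huniq _ _ <| by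
    rw [← hc, map_mul, Units.val_mul, ← Matrix.mulVec_mulVec, hc, Matrix.mulVec_smul, hc, smul_smul,
      mul_comm]
  have hone : c 1 = 1 := huniq _ _ <| by rw [← hc, map_one, Units.val_one, one_mulVec, one_smul]
  let c₀ : Γ →* k := ⟨⟨c, hone⟩, hmul⟩
  let d : Γ →* kˣ := Matrix.GeneralLinearGroup.det.comp τ
  let χ₁ : Γ →* kˣ := c₀.toHomUnits
  refine ⟨(diagHom k).comp (χ₁.prod (d * χ₁⁻¹)), Or.inr ⟨_, rfl⟩, fun g hg => ?_, fun g => ?_⟩
  · have hc1 : c g = 1 := huniq _ _ <| by rw [← hc, hg, Units.val_one, one_mulVec, one_smul]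
    have h1 : χ₁ g = 1 := Units.ext hc1
    have h2 : d g = 1 := by rw [MonoidHom.comp_apply, hg, map_one]
    rw [MonoidHom.comp_apply, MonoidHom.prod_apply, MonoidHom.mul_apply, MonoidHom.inv_apply, h1,
      h2, inv_one, mul_one]
    exact map_one _
  · set m : Matrix (Fin 2) (Fin 2) k := (τ g : Matrix (Fin 2) (Fin 2) k) with hm
    have hd : (d g : k) = m.det := rfl
    have hne : c g ≠ 0 := (χ₁ g).ne_zero
    have hev : c g ^ 2 - m.trace * c g + m.det = 0 := by
      have hdet : (m - c g • 1).det = 0 := by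
        refine Matrix.exists_mulVec_eq_zero_iff.mp ⟨v, hv, ?_⟩
        rw [sub_mulVec, hc, smul_mulVec, one_mulVec, sub_self]
      simp [Matrix.det_fin_two] at hdet
      rw [Matrix.det_fin_two, Matrix.trace_fin_two]
      linear_combination hdet
    constructor
    · rw [MonoidHom.comp_apply, val_diagHom, trace_fin_two_of]
      show c g + ((d g * (χ₁ g)⁻¹ : kˣ) : k) = _
      rw [Units.val_mul, hd, Units.val_inv_eq_inv_val, show ((χ₁ g : kˣ) : k) = c g from rfl]
      field_simp
      linear_combination hev
    · rw [MonoidHom.comp_apply, val_diagHom, det_fin_two_of]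
      show c g * ((d g * (χ₁ g)⁻¹ : kˣ) : k) - 0 * 0 = _
      rw [Units.val_mul, hd, Units.val_inv_eq_inv_val, show ((χ₁ g : kˣ) : k) = c g from rfl]
      field_simp
      ring

/-- Trace and determinant. -/
def trDet (x : GL (Fin 2) k) : k × k :=
  ((x : Matrix (Fin 2) (Fin 2) k).trace, (x : Matrix (Fin 2) (Fin 2) k).det)

/-- Trace and determinant of the inverse. -/
theorem trDet_inv (x : GL (Fin 2) k) :
    trDet x⁻¹ = ((trDet x).1 * (trDet x).2⁻¹, (trDet x).2⁻¹) := by
  have hdet : (x : Matrix (Fin 2) (Fin 2) k).det ≠ 0 :=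
    (Matrix.GeneralLinearGroup.det x).ne_zero
  simp only [trDet, Matrix.coe_units_inv, Ring.inverse_eq_inv',
    Matrix.inv_def, Matrix.trace_smul, Matrix.adjugate_fin_two,
    Matrix.trace_fin_two, smul_eq_mul]
  refine Prod.ext ?_ ?_
  · simp; ring
  · rw [Matrix.det_smul, Fintype.card_fin, det_fin_two_of]
    rw [Matrix.det_fin_two] at hdet ⊢
    field_simp

theorem trDet_conj (x y : GL (Fin 2) k) : trDet (y⁻¹ * x * y) = trDet x := by
  simp only [trDet, Units.val_mul, Matrix.trace_units_conj', Matrix.det_units_conj']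

/-- A semisimple group with all but an eighth of its elements taking at most `M` values of
(trace, determinant) has at most `2 M⁴ + 3 M` elements. -/
theorem card_range_le [IsAlgClosed k] (r : Γ →* GL (Fin 2) k) [Fintype r.range] (hss : IsSS r)
    (S : Finset (k × k)) {M : ℕ} (hS : S.card ≤ M)
    (hbad : 8 * (Finset.univ.filter fun x : r.range => trDet (x : GL (Fin 2) k) ∉ S).card ≤
      Fintype.card r.range) :
    Fintype.card r.range ≤ 2 * M ^ 4 + 3 * M := by
  set bad := Finset.univ.filter fun x : r.range => trDet (x : GL (Fin 2) k) ∉ S with hbaddef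
  set good := Finset.univ.filter fun x : r.range => trDet (x : GL (Fin 2) k) ∈ S with hgooddef
  have htot : good.card + bad.card = Fintype.card r.range := by
    rw [← Finset.card_univ]
    exact Finset.card_filter_add_card_filter_not _
  rcases hss with hirr | ⟨χ, hχ⟩
  · let m : r.range →* Matrix (Fin 2) (Fin 2) k :=
      (Units.coeHom _).comp r.range.subtype
    have hm : ∀ v : Fin 2 → k, v ≠ 0 → ∃ g, ∀ c : k, m g *ᵥ v ≠ c • v := fun v hv => by
      obtain ⟨g, hg⟩ := hirr v hv
      exact ⟨⟨r g, g, rfl⟩, hg⟩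
    obtain ⟨g, hg⟩ := Gal.exists_gram_isUnit m (Gal.span_range_eq_top m hm)
    let Ψ : Matrix (Fin 2) (Fin 2) k →ₗ[k] (Fin 4 → k) :=
      LinearMap.pi fun i => (Matrix.traceLinearMap (Fin 2) k k).comp
          (LinearMap.mulRight k (m (g i)))
    have hΨs : Function.Surjective Ψ := by
      intro w
      obtain ⟨c, hc⟩ := Matrix.vecMul_surjective_iff_isUnit.mpr
        ((Matrix.isUnit_iff_isUnit_det _).mpr hg) w
      refine ⟨∑ j, c j • m (g j), ?_⟩
      rw [← hc]
      ext i
      simp [Ψ, Matrix.vecMul, dotProduct]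
    have hΨ : Function.Injective Ψ := (LinearMap.injective_iff_surjective_of_finrank_eq_finrank
      (by simp [Module.finrank_matrix])).mpr hΨs
    set T := S.image Prod.fst with hT
    set A := Finset.univ.filter fun x : r.range => ∀ i, Matrix.trace (m x * m (g i)) ∈ T with hA
    have hAcard : A.card ≤ M ^ 4 := by
      have h1 : A.card ≤ (Fintype.piFinset fun _ : Fin 4 => T).card := by
        refine Finset.card_le_card_of_injOn (fun x i => Matrix.trace (m x * m (g i)))
          (fun x hx => Fintype.mem_piFinset.mpr (Finset.mem_filter.mp hx).2) fun x _ y _ h => ?_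
        exact Subtype.ext (Units.ext (hΨ (funext fun i => congrFun h i)))
      rw [Fintype.card_piFinset_const] at h1
      exact h1.trans (Nat.pow_le_pow_left (Finset.card_image_le.trans hS) 4)
    have hcover : (Finset.univ : Finset r.range) ⊆
        A ∪ Finset.univ.biUnion fun i : Fin 4 => bad.image fun y => y * (g i)⁻¹ := by
      intro x _
      by_cases hx : ∀ i, Matrix.trace (m x * m (g i)) ∈ T
      · exact Finset.mem_union_left _ (Finset.mem_filter.mpr ⟨Finset.mem_univ _, hx⟩)
      push Not at hx
      obtain ⟨i, hi⟩ := hx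
      refine Finset.mem_union_right _ (Finset.mem_biUnion.mpr ⟨i, Finset.mem_univ _,
        Finset.mem_image.mpr ⟨x * g i, Finset.mem_filter.mpr ⟨Finset.mem_univ _, fun h => hi ?_⟩,
          mul_inv_cancel_right x (g i)⟩⟩)
      exact Finset.mem_image.mpr ⟨_, h, rfl⟩
    have h2 := (Finset.card_le_card hcover).trans (Finset.card_union_le _ _)
    have h3 : (Finset.univ.biUnion fun i : Fin 4 => bad.image fun y => y * (g i)⁻¹).card ≤
        4 * bad.card := by
      refine (Finset.card_biUnion_le).trans ((Finset.sum_le_card_nsmul _ _ bad.card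
        fun i _ => Finset.card_image_le).trans ?_)
      simp
    rw [Finset.card_univ] at h2
    omega
  · have hgood : good.card ≤ 2 * M := by
      let roots : k × k → Finset k := fun p =>
        (Polynomial.X ^ 2 - Polynomial.C p.1 * Polynomial.X + Polynomial.C p.2).roots.toFinset
      have h1 : good.card ≤ (S.biUnion fun p => (roots p).image fun a => (p, a)).card := by
        refine Finset.card_le_card_of_injOn
          (fun x => (trDet (x : GL (Fin 2) k), ((x : GL (Fin 2) k) : Matrix (Fin 2) (Fin 2) k) 0 0))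
          (fun x hx => ?_) fun x _ y _ h => ?_
        · obtain ⟨-, hxS⟩ := Finset.mem_filter.mp hx
          refine Finset.mem_biUnion.mpr ⟨_, hxS, Finset.mem_image.mpr ⟨_, ?_, rfl⟩⟩
          obtain ⟨_, z, rfl⟩ := x
          have hmonic : (Polynomial.X ^ 2 - Polynomial.C (trDet (r z)).1 * Polynomial.X +
              Polynomial.C (trDet (r z)).2).Monic := by monicity!
          rw [Multiset.mem_toFinset, Polynomial.mem_roots hmonic.ne_zero]
          simp [hχ, trDet, val_diagHom, trace_fin_two_of, det_fin_two_of]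
          ring
        · obtain ⟨_, z, rfl⟩ := x
          obtain ⟨_, w, rfl⟩ := y
          refine Subtype.ext (Units.ext ?_)
          simp only [hχ, MonoidHom.comp_apply, trDet, val_diagHom, trace_fin_two_of,
            det_fin_two_of, Prod.mk.injEq] at h ⊢
          obtain ⟨⟨ht, -⟩, h00⟩ := h
          simp at h00
          rw [h00] at ht ⊢
          rw [add_left_cancel ht]
      refine h1.trans (Finset.card_biUnion_le.trans ((Finset.sum_le_card_nsmul _ _ 2
        fun p _ => Finset.card_image_le.trans ((Multiset.toFinset_card_le _).trans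
          ((Polynomial.card_roots' _).trans ?_))).trans ?_))
      · compute_degree
      · rw [smul_eq_mul, mul_comm]; omega
    omega

end Fermat.Agent.WeightOneGalois
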