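import Mathlib
import Fermat.Prelude.Def_FLTPrelim_Modularity
import Fermat.Agent.MF.CuspChar

/-!
# The bound of Rankin

For a weight-one cusp form with multiplicative coefficients away from `N`, the sum of
`|a_p| ^ 2 p ^ (-s)` over good primes is at most `log (1 / (s - 1)) + O(1)`. The inputs are the
bound `|g| = O(y ^ (-1/2))`, the inequality of Bessel, and a lower bound for each Euler factor.
-/

noncomputable section

open UpperHalfPlane hiding I
open CongruenceSubgroup ModularFormClass MeasureTheory Filter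
open scoped MatrixGroups Topology

namespace Fermat.Agent.WeightOneGalois

section MeanSquare

variable {M : ℕ} [NeZero M] {g : ℍ → ℂ}

/-- The mean square of the coefficients is bounded. -/
theorem sum_sq_qCoeff_le (hg : MF.IsCuspFn (Gamma1 M) 1 g) :
    ∃ A : ℝ, 0 ≤ A ∧ ∀ X : ℕ, 1 ≤ X → ∑ n ∈ Finset.range (X + 1), ‖qCoeff g n‖ ^ 2 ≤ A * X := by
  have hq : MF.IsQFn g := hg.form.isQFn (by simp [ModularGroup.coe_T])
  obtain ⟨C, hC⟩ := CuspFormClass.exists_bound hg.toCuspForm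
  refine ⟨Real.exp (4 * Real.pi) * C ^ 2, by positivity, fun X hX => ?_⟩
  have hX0 : (0 : ℝ) < X := by exact_mod_cast hX
  set t : ℝ := 1 / X with ht
  have ht0 : 0 < t := by positivity
  let P : ℝ → ℍ := fun u => ⟨u + t * Complex.I, by simpa using ht0⟩
  have him : ∀ u, (P u).im = t := fun u => by simp [P, UpperHalfPlane.im]
  have hcont : Continuous fun u => g (P u) :=
    hg.form.mdiff.continuous.comp
      (UpperHalfPlane.isEmbedding_coe.continuous_iff.mpr
          (by simp only [P, Function.comp_def]; fun_prop))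
  have hb : ∀ u, ‖g (P u)‖ ^ 2 ≤ C ^ 2 / t := fun u => by
    have h := hC (P u)
    rw [MF.IsCuspFn.coe_toCuspForm, him] at h
    refine (pow_le_pow_left₀ (norm_nonneg _) h 2).trans (le_of_eq ?_)
    rw [div_pow, ← Real.rpow_natCast (t ^ (_ : ℝ)) 2, ← Real.rpow_mul ht0.le]
    norm_num
  have hmem : MemLp (fun u => g (P u)) 2 (volume.restrict (Set.Ioc (0 : ℝ) 1)) := by
    refine MemLp.of_bound hcont.aestronglyMeasurable (Real.sqrt (C ^ 2 / t))
      (Eventually.of_forall fun u => ?_)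
    exact Real.le_sqrt_of_sq_le (hb u)
  have hP := hasSum_sq_fourierCoeffOn (zero_lt_one (α := ℝ)) hmem
  have hfc : ∀ n : ℕ, fourierCoeffOn (zero_lt_one (α := ℝ)) (fun u => g (P u)) (n : ℤ) =
      (Real.exp (-(2 * Real.pi * n * t)) : ℂ) * qCoeff g n := fun n => by
    rw [fourierCoeffOn_eq_integral, qCoeff,
      qExpansion_coeff_eq_intervalIntegral one_pos hq.periodic hq.mdiff hq.bdd n ht0]
    simp only [sub_zero, div_one, one_smul, Complex.ofReal_one, one_mul]
    rw [← intervalIntegral.integral_const_mul]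
    refine intervalIntegral.integral_congr fun u _ => ?_
    show fourier (-(n : ℤ)) (u : AddCircle ((1 : ℝ) - 0)) • g (P u) = _
    rw [fourier_coe_apply, smul_eq_mul, ← mul_assoc]
    congr 1
    rw [Function.Periodic.qParam, ← Complex.exp_nat_mul, one_div, ← Complex.exp_neg,
      Complex.ofReal_exp, ← Complex.exp_add]
    congr 1
    push_cast
    linear_combination (2 * (Real.pi : ℂ) * n * t) * Complex.I_sq
  have hsum : ∑ n ∈ Finset.range (X + 1), Real.exp (-(4 * Real.pi)) * ‖qCoeff g n‖ ^ 2 ≤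
      C ^ 2 / t := by
    calc ∑ n ∈ Finset.range (X + 1), Real.exp (-(4 * Real.pi)) * ‖qCoeff g n‖ ^ 2
        ≤ ∑ n ∈ Finset.range (X + 1),
            ‖fourierCoeffOn (zero_lt_one (α := ℝ)) (fun u => g (P u)) (n : ℤ)‖ ^ 2 := by
          refine Finset.sum_le_sum fun n hn => ?_
          rw [hfc, norm_mul, mul_pow, Complex.norm_real, Real.norm_of_nonneg (Real.exp_pos _).le,
            ← Real.exp_nat_mul]
          refine mul_le_mul_of_nonneg_right (Real.exp_le_exp.mpr ?_) (sq_nonneg _)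
          have hn' : (n : ℝ) * t ≤ 1 := by
            rw [ht, mul_one_div, div_le_one hX0]
            exact_mod_cast Nat.lt_succ_iff.mp (Finset.mem_range.mp hn)
          have := mul_le_mul_of_nonneg_left hn' (show (0 : ℝ) ≤ 4 * Real.pi by positivity)
          push_cast
          nlinarith
      _ ≤ (1 - 0 : ℝ)⁻¹ • ∫ u in (0 : ℝ)..1, ‖g (P u)‖ ^ 2 := by
          have h := sum_le_hasSum ((Finset.range (X + 1)).map Nat.castEmbedding)
            (fun i _ => sq_nonneg _) hP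
          rwa [Finset.sum_map] at h
      _ ≤ C ^ 2 / t := by
          simp only [sub_zero, inv_one, one_smul]
          refine (intervalIntegral.integral_mono_on zero_le_one
            ((hcont.norm.pow 2).intervalIntegrable _ _) (continuous_const.intervalIntegrable _ _)
            fun u _ => hb u).trans (le_of_eq ?_)
          simp
  rw [← Finset.mul_sum, Real.exp_neg, inv_mul_le_iff₀ (Real.exp_pos _), ht] at hsum
  refine hsum.trans (le_of_eq ?_)
  field_simp

/-- The Dirichlet series of the squares has at most a simple pole at `1`. -/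
theorem sum_sq_rpow_le (hg : MF.IsCuspFn (Gamma1 M) 1 g) :
    ∃ C : ℝ, 0 < C ∧ ∀ s : ℝ, 1 < s → s ≤ 2 → ∀ S : Finset ℕ, (∀ n ∈ S, 0 < n) →
      ∑ n ∈ S, ‖qCoeff g n‖ ^ 2 * (n : ℝ) ^ (-s) ≤ C / (s - 1) := by
  obtain ⟨A, hA0, hA⟩ := sum_sq_qCoeff_le hg
  refine ⟨4 * (A + 1) / Real.log 2, by have := Real.log_pos one_lt_two; positivity,
    fun s hs hs2 S hS => ?_⟩
  set r : ℝ := (2 : ℝ) ^ (1 - s) with hr
  have hr0 : 0 ≤ r := Real.rpow_nonneg two_pos.le _
  set x : ℝ := (s - 1) * Real.log 2 with hx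
  have hx0 : 0 < x := mul_pos (by linarith) (Real.log_pos one_lt_two)
  have hx1 : x ≤ 1 := by
    have h1 : Real.log 2 ≤ 1 := by linarith [Real.log_le_sub_one_of_pos two_pos]
    nlinarith [Real.log_pos one_lt_two]
  have hrx : r * (1 + x) ≤ 1 := by
    rw [hr, Real.rpow_def_of_pos two_pos, show Real.log 2 * (1 - s) = -x by rw [hx]; ring,
      Real.exp_neg, inv_mul_le_iff₀ (Real.exp_pos _), mul_one]
    linarith [Real.add_one_le_exp x]
  have hr1 : r < 1 := by nlinarith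
  have hgap : x / 2 ≤ 1 - r := by nlinarith
  obtain ⟨J, hJ⟩ : ∃ J : ℕ, ∀ n ∈ S, Nat.log 2 n ∈ Finset.range J :=
    ⟨S.sup (Nat.log 2) + 1, fun n hn => Finset.mem_range.mpr (Nat.lt_succ_of_le (Finset.le_sup hn))⟩
  rw [← Finset.sum_fiberwise_of_maps_to hJ]
  have hfib : ∀ j ∈ Finset.range J, ∑ n ∈ S.filter (fun n => Nat.log 2 n = j),
      ‖qCoeff g n‖ ^ 2 * (n : ℝ) ^ (-s) ≤ 2 * A * r ^ j := by
    intro j _
    have hpj : (0 : ℝ) < (2 : ℝ) ^ j := pow_pos two_pos j
    calc ∑ n ∈ S.filter (fun n => Nat.log 2 n = j), ‖qCoeff g n‖ ^ 2 * (n : ℝ) ^ (-s)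
        ≤ ∑ n ∈ S.filter (fun n => Nat.log 2 n = j), ‖qCoeff g n‖ ^ 2 * ((2 : ℝ) ^ j) ^ (-s) := by
          refine Finset.sum_le_sum fun n hn => mul_le_mul_of_nonneg_left ?_ (sq_nonneg _)
          rw [Finset.mem_filter] at hn
          refine Real.rpow_le_rpow_of_nonpos hpj ?_ (by linarith)
          have := Nat.pow_log_le_self 2 (hS n hn.1).ne'
          rw [hn.2] at this
          exact_mod_cast this
      _ = (∑ n ∈ S.filter (fun n => Nat.log 2 n = j), ‖qCoeff g n‖ ^ 2) * ((2 : ℝ) ^ j) ^ (-s) :=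
          (Finset.sum_mul _ _ _).symm
      _ ≤ (∑ n ∈ Finset.range (2 ^ (j + 1) + 1), ‖qCoeff g n‖ ^ 2) * ((2 : ℝ) ^ j) ^ (-s) := by
          refine mul_le_mul_of_nonneg_right
            (Finset.sum_le_sum_of_subset_of_nonneg (fun n hn => ?_) fun n _ _ => sq_nonneg _)
            (Real.rpow_nonneg hpj.le _)
          rw [Finset.mem_filter] at hn
          have := Nat.lt_pow_succ_log_self one_lt_two n
          rw [hn.2] at this
          exact Finset.mem_range.mpr (this.trans (Nat.lt_succ_self _))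
      _ ≤ A * (2 ^ (j + 1) : ℕ) * ((2 : ℝ) ^ j) ^ (-s) :=
          mul_le_mul_of_nonneg_right (hA _ Nat.one_le_two_pow) (Real.rpow_nonneg hpj.le _)
      _ = 2 * A * r ^ j := by
          rw [hr, ← Real.rpow_natCast 2 j, ← Real.rpow_mul two_pos.le,
            ← Real.rpow_natCast ((2 : ℝ) ^ (1 - s)) j, ← Real.rpow_mul two_pos.le]
          push_cast
          rw [pow_succ, ← Real.rpow_natCast 2 j,
            show (1 - s) * (j : ℝ) = (j : ℝ) + j * -s by ring, Real.rpow_add two_pos]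
          ring
  refine (Finset.sum_le_sum hfib).trans ?_
  rw [← Finset.mul_sum]
  have hgeom : ∑ j ∈ Finset.range J, r ^ j ≤ (1 - r)⁻¹ :=
    sum_le_hasSum _ (fun j _ => pow_nonneg hr0 j) (hasSum_geometric_of_lt_one hr0 hr1)
  calc 2 * A * ∑ j ∈ Finset.range J, r ^ j ≤ 2 * A * (x / 2)⁻¹ :=
        mul_le_mul_of_nonneg_left (hgeom.trans (inv_anti₀ (by linarith) hgap)) (by linarith)
    _ ≤ 2 * (A + 1) * (x / 2)⁻¹ := by gcongr; linarith
    _ = 4 * (A + 1) / Real.log 2 / (s - 1) := by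
        rw [hx]
        field_simp
        ring

end MeanSquare

section Euler

variable {a : ℕ → ℂ} {N : ℕ} {e : ℕ → ℂ}
  (h1 : a 1 = 1)
  (hrec : ∀ p, p.Prime → ¬ p ∣ N → ∀ n,
    a (p * n) + e p * (if p ∣ n then a (n / p) else 0) = a p * a n)

include hrec in
theorem rec_pow_mul {p : ℕ} (hp : p.Prime) (hpN : ¬ p ∣ N) (k n : ℕ) :
    a (p ^ (k + 2) * n) = a p * a (p ^ (k + 1) * n) - e p * a (p ^ k * n) := by
  have h := hrec p hp hpN (p ^ (k + 1) * n)
  rw [if_pos ((dvd_pow_self p k.succ_ne_zero).mul_right n), ← mul_assoc, ← pow_succ',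
    show p ^ (k + 1) * n / p = p ^ k * n by
      rw [pow_succ', mul_assoc, Nat.mul_div_cancel_left _ hp.pos]] at h
  exact eq_sub_of_add_eq h

include h1 hrec in
theorem coeff_pow_mul {p : ℕ} (hp : p.Prime) (hpN : ¬ p ∣ N) {n : ℕ} (hn : ¬ p ∣ n) :
    ∀ k, a (p ^ k * n) = a (p ^ k) * a n
  | 0 => by simp [h1]
  | 1 => by
    have h := hrec p hp hpN n
    rw [if_neg hn, mul_zero, add_zero] at h
    simpa using h
  | k + 2 => by
    rw [rec_pow_mul hrec hp hpN, coeff_pow_mul hp hpN hn (k + 1), coeff_pow_mul hp hpN hn k]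
    have h := rec_pow_mul hrec hp hpN k 1
    simp only [mul_one] at h
    rw [h]
    ring

include h1 hrec in
/-- A finite product of truncated Euler factors is a finite sum of the series. -/
theorem exists_finset_eq_prod (s : ℝ) (K : ℕ) (T : Finset ℕ)
    (hT : ∀ p ∈ T, p.Prime ∧ ¬ p ∣ N) :
    ∃ S : Finset ℕ, (∀ n ∈ S, 0 < n ∧ ∀ q : ℕ, q.Prime → q ∣ n → q ∈ T) ∧
      ∑ n ∈ S, ‖a n‖ ^ 2 * (n : ℝ) ^ (-s) =
        ∏ p ∈ T, ∑ k ∈ Finset.range K, ‖a (p ^ k)‖ ^ 2 * ((p : ℝ) ^ (-s)) ^ k := by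
  classical
  induction T using Finset.induction_on with
  | empty =>
    refine ⟨{1}, fun n hn => ?_, by simp [h1]⟩
    rw [Finset.mem_singleton] at hn
    subst hn
    exact ⟨one_pos, fun q hq h => absurd (Nat.dvd_one.mp h) hq.one_lt.ne'⟩
  | insert p T hpT ih =>
    obtain ⟨S, hS, hsum⟩ := ih fun q hq => hT q (Finset.mem_insert_of_mem hq)
    obtain ⟨hp, hpN⟩ := hT p (Finset.mem_insert_self p T)
    have hndvd : ∀ n ∈ S, ¬ p ∣ n := fun n hn h => hpT ((hS n hn).2 p hp h)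
    have hval : ∀ z ∈ Finset.range K ×ˢ S, ∀ z' ∈ Finset.range K ×ˢ S,
        p ^ z.1 * z.2 = p ^ z'.1 * z'.2 → z = z' := by
      rintro ⟨k, n⟩ hz ⟨k', n'⟩ hz' e
      obtain ⟨-, hn⟩ := Finset.mem_product.mp hz
      obtain ⟨-, hn'⟩ := Finset.mem_product.mp hz'
      simp only at e hn hn'
      obtain ⟨hk, rfl⟩ : k = k' ∧ n = n' := by
        rcases le_total k k' with h | h
        · obtain ⟨d, rfl⟩ := Nat.exists_eq_add_of_le h
          rw [pow_add, mul_assoc] at e
          have e' := Nat.eq_of_mul_eq_mul_left (pow_pos hp.pos k) e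
          cases d with
          | zero => exact ⟨rfl, by simpa using e'⟩
          | succ d =>
            exact absurd (e' ▸ (dvd_pow_self p d.succ_ne_zero).mul_right n') (hndvd n hn)
        · obtain ⟨d, rfl⟩ := Nat.exists_eq_add_of_le h
          rw [pow_add, mul_assoc] at e
          have e' := Nat.eq_of_mul_eq_mul_left (pow_pos hp.pos k') e
          cases d with
          | zero => exact ⟨rfl, by simpa using e'⟩
          | succ d =>
            exact absurd (e'.symm ▸ (dvd_pow_self p d.succ_ne_zero).mul_right n) (hndvd n' hn')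
      rw [hk]
    refine ⟨(Finset.range K ×ˢ S).image fun z => p ^ z.1 * z.2, fun m hm => ?_, ?_⟩
    · obtain ⟨⟨k, n⟩, hz, rfl⟩ := Finset.mem_image.mp hm
      obtain ⟨-, hn⟩ := Finset.mem_product.mp hz
      refine ⟨Nat.mul_pos (pow_pos hp.pos k) (hS n hn).1, fun q hq h => ?_⟩
      rcases hq.dvd_mul.mp h with h | h
      · exact Finset.mem_insert.mpr (Or.inl ((Nat.prime_dvd_prime_iff_eq hq hp).mp
          (hq.dvd_of_dvd_pow h)))
      · exact Finset.mem_insert_of_mem ((hS n hn).2 q hq h)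
    · rw [Finset.sum_image hval, Finset.prod_insert hpT, ← hsum, Finset.sum_mul_sum,
        Finset.sum_product]
      refine Finset.sum_congr rfl fun k _ => Finset.sum_congr rfl fun n hn => ?_
      rw [coeff_pow_mul h1 hrec hp hpN (hndvd n hn) k, norm_mul, mul_pow, Nat.cast_mul,
        Nat.cast_pow, Real.mul_rpow (by positivity) (by positivity),
        ← Real.rpow_natCast (p : ℝ) k, ← Real.rpow_natCast ((p : ℝ) ^ (-s)) k,
        ← Real.rpow_mul (by positivity), ← Real.rpow_mul (by positivity), mul_comm (k : ℝ)]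
      ring

/-- The truncated factors are eventually at least `exp (|α|² t - 256 t²)`. -/
theorem exists_factor_ge (b : ℕ → ℂ) {α c : ℂ} (hc : ‖c‖ = 1) (h0 : b 0 = 1) (hb1 : b 1 = α)
    (hb : ∀ k, b (k + 2) = α * b (k + 1) - c * b k) {t : ℝ} (ht : 0 < t) :
    ∃ K : ℕ, Real.exp (‖α‖ ^ 2 * t - 256 * t ^ 2) ≤ ∑ k ∈ Finset.range K, ‖b k‖ ^ 2 * t ^ k := by
  set y := ‖α‖ ^ 2 * t with hy
  by_cases hα : ‖α‖ < 4
  · refine ⟨2, ?_⟩
    have hy1 : y ^ 2 ≤ 256 * t ^ 2 := by
      have h16 : ‖α‖ ^ 2 ≤ 16 := by nlinarith [norm_nonneg α]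
      rw [hy, mul_pow]
      exact mul_le_mul_of_nonneg_right (by nlinarith [sq_nonneg ‖α‖]) (sq_nonneg t)
    have hy0 : 0 ≤ y := by positivity
    have hd : 0 < 1 - (y - y ^ 2) := by nlinarith [sq_nonneg (y - 1 / 2)]
    have he : Real.exp (y - y ^ 2) ≤ (1 - (y - y ^ 2))⁻¹ := by
      rw [← inv_inv (Real.exp (y - y ^ 2)), ← Real.exp_neg]
      exact inv_anti₀ hd (by linarith [Real.add_one_le_exp (-(y - y ^ 2))])
    calc Real.exp (y - 256 * t ^ 2) ≤ Real.exp (y - y ^ 2) := Real.exp_le_exp.mpr (by linarith)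
      _ ≤ 1 + y := by
          refine he.trans ?_
          rw [inv_le_iff_one_le_mul₀ hd]
          nlinarith [pow_nonneg hy0 3]
      _ = ∑ k ∈ Finset.range 2, ‖b k‖ ^ 2 * t ^ k := by
          simp [Finset.sum_range_succ, h0, hb1, hy]
  push Not at hα
  have hgrow : ∀ k, (‖α‖ - 1) * ‖b k‖ ≤ ‖b (k + 1)‖ := by
    intro k
    induction k with
    | zero => simp [h0, hb1]
    | succ k ih =>
      have h2 := norm_sub_norm_le (α * b (k + 1)) (c * b k)
      rw [norm_mul, norm_mul, hc, one_mul, ← hb] at h2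
      nlinarith [norm_nonneg (b k)]
  have hlow : ∀ k, (‖α‖ ^ 2) ^ k / k.factorial ≤ ‖b k‖ ^ 2 := by
    intro k
    induction k with
    | zero => simp [h0]
    | succ k ih =>
      cases k with
      | zero => simp [hb1]
      | succ m =>
        have hB : ((‖α‖ - 1) * ‖b (m + 1)‖) ^ 2 ≤ ‖b (m + 1 + 1)‖ ^ 2 :=
          pow_le_pow_left₀ (mul_nonneg (by linarith) (norm_nonneg _)) (hgrow (m + 1)) 2
        have hm : ‖α‖ ^ 2 / (m + 1 + 1 : ℕ) ≤ (‖α‖ - 1) ^ 2 := by
          rw [div_le_iff₀ (by positivity)]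
          push_cast
          nlinarith
        calc (‖α‖ ^ 2) ^ (m + 1 + 1) / (m + 1 + 1).factorial
            = (‖α‖ ^ 2 / (m + 1 + 1 : ℕ)) * ((‖α‖ ^ 2) ^ (m + 1) / (m + 1).factorial) := by
              rw [pow_succ _ (m + 1), Nat.factorial_succ (m + 1)]
              push_cast
              field_simp
          _ ≤ (‖α‖ - 1) ^ 2 * ‖b (m + 1)‖ ^ 2 := by gcongr
          _ ≤ ‖b (m + 1 + 1)‖ ^ 2 := by rwa [← mul_pow]
  have hexp : HasSum (fun k : ℕ => y ^ k / k.factorial) (Real.exp y) := by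
    rw [Real.exp_eq_exp_ℝ]
    exact NormedSpace.expSeries_div_hasSum_exp y
  have hlt : Real.exp (y - 256 * t ^ 2) < Real.exp y :=
    Real.exp_lt_exp.mpr (by nlinarith [sq_pos_of_pos ht])
  obtain ⟨K, hK⟩ := (hexp.tendsto_sum_nat.eventually (eventually_ge_nhds hlt)).exists
  refine ⟨K, hK.trans (Finset.sum_le_sum fun k _ => ?_)⟩
  rw [hy, mul_pow, mul_div_right_comm]
  exact mul_le_mul_of_nonneg_right (hlow k) (pow_nonneg ht.le k)

end Euler

/-- The bound of Rankin. -/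
theorem rankin_bound {M : ℕ} [NeZero M] {g : ℍ → ℂ} (hg : MF.IsCuspFn (Gamma1 M) 1 g) {N : ℕ}
    {e : ℕ → ℂ} (h1 : qCoeff g 1 = 1) (he : ∀ p, p.Prime → ¬ p ∣ N → ‖e p‖ = 1)
    (hrec : ∀ p, p.Prime → ¬ p ∣ N → ∀ n,
      qCoeff g (p * n) + e p * (if p ∣ n then qCoeff g (n / p) else 0) =
        qCoeff g p * qCoeff g n) :
    ∃ C : ℝ, ∀ s : ℝ, 1 < s → s ≤ 2 → ∀ T : Finset ℕ, (∀ p ∈ T, p.Prime ∧ ¬ p ∣ N) →
      ∑ p ∈ T, ‖qCoeff g p‖ ^ 2 * (p : ℝ) ^ (-s) ≤ Real.log (s - 1)⁻¹ + C := by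
  classical
  obtain ⟨D, hD, hbound⟩ := sum_sq_rpow_le hg
  set Z : ℝ := ∑' n : ℕ, 1 / (n : ℝ) ^ 2
  refine ⟨Real.log D + 256 * Z, fun s hs hs2 T hT => ?_⟩
  have hfac : ∀ p : T, ∃ K : ℕ,
      Real.exp (‖qCoeff g p.1‖ ^ 2 * (p.1 : ℝ) ^ (-s) - 256 * ((p.1 : ℝ) ^ (-s)) ^ 2) ≤
        ∑ k ∈ Finset.range K, ‖qCoeff g (p.1 ^ k)‖ ^ 2 * ((p.1 : ℝ) ^ (-s)) ^ k := by
    rintro ⟨p, hpT⟩
    obtain ⟨hp, hpN⟩ := hT p hpT
    refine exists_factor_ge (fun k => qCoeff g (p ^ k)) (he p hp hpN) (by simpa using h1) (by simp)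
      (fun k => ?_) (Real.rpow_pos_of_pos (by exact_mod_cast hp.pos) _)
    simpa using rec_pow_mul hrec hp hpN k 1
  choose K hK using hfac
  obtain ⟨S, hS, hsum⟩ := exists_finset_eq_prod h1 hrec s (Finset.univ.sup K) T hT
  have hprod : Real.exp (∑ p ∈ T, (‖qCoeff g p‖ ^ 2 * (p : ℝ) ^ (-s) -
      256 * ((p : ℝ) ^ (-s)) ^ 2)) ≤ D / (s - 1) := by
    rw [Real.exp_sum]
    refine le_trans ?_ (hbound s hs hs2 S fun n hn => (hS n hn).1)
    rw [hsum]
    refine Finset.prod_le_prod (fun p _ => (Real.exp_pos _).le) fun p hp => ?_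
    refine (hK ⟨p, hp⟩).trans (Finset.sum_le_sum_of_subset_of_nonneg
      (Finset.range_mono (Finset.le_sup (f := K) (Finset.mem_univ _))) fun k _ _ => ?_)
    positivity
  have herr : ∑ p ∈ T, ((p : ℝ) ^ (-s)) ^ 2 ≤ Z := by
    refine le_trans (Finset.sum_le_sum fun p hp => ?_)
      ((Real.summable_one_div_nat_pow.mpr one_lt_two).sum_le_tsum T fun n _ => by positivity)
    have hp1 : (1 : ℝ) ≤ p := by exact_mod_cast (hT p hp).1.pos
    rw [one_div, ← inv_pow, Real.rpow_neg (by positivity)]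
    refine pow_le_pow_left₀ (by positivity) (inv_anti₀ (by linarith) ?_) 2
    conv_lhs => rw [← Real.rpow_one (p : ℝ)]
    exact Real.rpow_le_rpow_of_exponent_le hp1 hs.le
  rw [← Real.le_log_iff_exp_le (div_pos hD (by linarith)), Finset.sum_sub_distrib,
    ← Finset.mul_sum, Real.log_div hD.ne' (by linarith)] at hprod
  rw [Real.log_inv]
  linarith

end Fermat.Agent.WeightOneGalois
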