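import Mathlib.NumberTheory.NumberField.InfinitePlace.Embeddings
import Fermat.Agent.MF.Endo
import Fermat.Agent.WeightOneGalois.Analytic.Rankin
import Fermat.Agent.WeightOneGalois.Chebotarev.PrimeSum
import Fermat.Agent.WeightOneGalois.Interface

/-!
# Almost all coefficients take finitely many values

By Rankin's bound for every conjugate form, the good primes whose coefficient has a conjugate of
square norm above `16 d` (`d` the degree of the coefficient field) have prime sum at most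
`log (1 / (s - 1)) / 16 + O(1)`; the others have only finitely many possible coefficients.
-/

noncomputable section

namespace Fermat.Agent.WeightOneGalois

open Filter Topology CongruenceSubgroup
open ModularFormClass (qCoeff)
open scoped Classical

/-- The indicator of the primes away from `N` with property `P`. -/
def goodInd (N : ℕ) (P : ℕ → Prop) (ℓ : Nat.Primes) : ℝ :=
  if ¬ (ℓ : ℕ) ∣ N ∧ P ℓ then 1 else 0

theorem goodInd_nonneg (N : ℕ) (P : ℕ → Prop) (ℓ : Nat.Primes) : 0 ≤ goodInd N P ℓ := by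
  unfold goodInd; split_ifs <;> norm_num

theorem bd_goodInd (N : ℕ) (P : ℕ → Prop) : Bd (goodInd N P) :=
  ⟨1, fun ℓ => by unfold goodInd; split_ifs <;> norm_num⟩

/-- An embedding of a number field inside `ℂ` extends to an endomorphism of `ℂ`. -/
theorem exists_ringHom_extend {K : IntermediateField ℚ ℂ} [FiniteDimensional ℚ K] (φ : K →+* ℂ) :
    ∃ σ : ℂ →+* ℂ, ∀ x : K, σ x = φ x := by
  set L := algebraicClosure ℚ ℂ with hL
  have : IsAlgClosure ℚ L := algebraicClosure.isAlgClosure ℚ ℂ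
  have : IsAlgClosed L := IsAlgClosure.isAlgClosed ℚ
  have : Algebra.IsAlgebraic ℚ L := IsAlgClosure.isAlgebraic
  have hKL : K ≤ L := fun x hx => by
    rw [hL, mem_algebraicClosure_iff]
    exact (IntermediateField.isAlgebraic_iff (S := K) (x := (⟨x, hx⟩ : K))).mp
      (Algebra.IsAlgebraic.isAlgebraic _)
  let K' : IntermediateField ℚ L := K.comap L.val
  let φ' : K' →ₐ[ℚ] L :=
    { toFun := fun x => ⟨φ ⟨((x : L) : ℂ), x.2⟩, mem_algebraicClosure_iff.mpr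
        ((Algebra.IsAlgebraic.isAlgebraic (R := ℚ) (⟨((x : L) : ℂ), x.2⟩ : K)).algHom
          φ.toRatAlgHom)⟩
      map_one' := Subtype.ext (map_one φ)
      map_mul' := fun x y => Subtype.ext (map_mul φ ⟨((x : L) : ℂ), x.2⟩ ⟨((y : L) : ℂ), y.2⟩)
      map_zero' := Subtype.ext (map_zero φ)
      map_add' := fun x y => Subtype.ext (map_add φ ⟨((x : L) : ℂ), x.2⟩ ⟨((y : L) : ℂ), y.2⟩)
      commutes' := fun q => Subtype.ext (φ.toRatAlgHom.commutes q) }
  obtain ⟨ψ, hψ⟩ := IntermediateField.exists_algHom_of_splits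
    (fun s : L => ⟨(Algebra.IsAlgebraic.isAlgebraic s).isIntegral, IsAlgClosed.splits _⟩) φ'
  let τ : L ≃ₐ[ℚ] L := AlgEquiv.ofBijective ψ (Algebra.IsAlgebraic.algHom_bijective ψ)
  obtain ⟨s, hs⟩ := exists_isTranscendenceBasis L ℂ
  obtain ⟨σ, hσ⟩ := MF.exists_extend hs (MvPolynomial.mapEquiv _ τ.toRingEquiv)
  refine ⟨σ, fun x => ?_⟩
  have hx : (⟨(x : ℂ), hKL x.2⟩ : L) ∈ K' := x.2
  have h := hσ (MvPolynomial.C (⟨(x : ℂ), hKL x.2⟩ : L))
  simp only [MvPolynomial.aeval_C, MvPolynomial.mapEquiv_apply, MvPolynomial.map_C,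
    RingHom.coe_coe, AlgEquiv.coe_ringEquiv] at h
  refine h.trans ?_
  exact congrArg Subtype.val (AlgHom.congr_fun hψ ⟨_, hx⟩)

/-- Outside a set of prime sum `≤ log (1 / (s - 1)) / 16 + O(1)` the coefficient lies in a finite
set. -/
theorem exists_small_values (hA : WeightOneArith) {N : ℕ} [NeZero N]
    {ε : DirichletCharacter ℂ N} {f : CuspForm (Gamma1 N) 1} (hE : IsEigen ε f) :
    ∃ Y : Finset ℂ, ∃ C : ℝ, ∀ᶠ s in 𝓝[>] (1 : ℝ),
      pSum (goodInd N fun p => qCoeff f p ∉ Y) s ≤ 1 / 16 * logPole s + C := by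
  obtain ⟨hint, ⟨K, hK, hmem⟩, hconj⟩ := hA N ε f hE
  have : NumberField K := @NumberField.mk _ _ inferInstance hK
  set d : ℝ := (Fintype.card (K →+* ℂ) : ℝ) with hd
  have hd0 : 0 < d := Nat.cast_pos.mpr Fintype.card_pos
  set Y := ((NumberField.Embeddings.finite_of_norm_le K ℂ (Real.sqrt (16 * d))).image
    (fun x : K => (x : ℂ))).toFinset with hY
  choose σ hσ using fun φ : K →+* ℂ => exists_ringHom_extend φ
  have hC : ∀ φ : K →+* ℂ, ∃ C : ℝ, ∀ s : ℝ, 1 < s → s ≤ 2 → ∀ T : Finset ℕ,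
      (∀ p ∈ T, p.Prime ∧ ¬ p ∣ N) →
      ∑ p ∈ T, ‖σ φ (qCoeff f p)‖ ^ 2 * (p : ℝ) ^ (-s) ≤ Real.log (s - 1)⁻¹ + C := fun φ => by
    obtain ⟨M, g, hM, hg, hco⟩ := hconj (σ φ)
    have : NeZero M := ⟨hM⟩
    obtain ⟨C, hC⟩ := rankin_bound hg (N := N) (e := fun p => σ φ (ε (p : ZMod N)))
      (by rw [hco, hE.one, map_one])
      (fun p hp hpN => by
        obtain ⟨u, hu⟩ := (ZMod.isUnit_iff_coprime p N).mpr (hp.coprime_iff_not_dvd.mpr hpN)
        rw [← hu]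
        exact DirichletCharacter.unit_norm_eq_one (ε.ringHomComp (σ φ)) u)
      (fun p hp hpN n => by
        simp only [hco]
        rw [← map_mul (σ φ), ← hE.hecke p hp hpN n, map_add, map_mul]
        split_ifs <;> simp)
    exact ⟨C, fun s hs hs2 T hT => by simpa only [hco] using hC s hs hs2 T hT⟩
  choose C hC using hC
  refine ⟨Y, (∑ φ, C φ) / (16 * d), ?_⟩
  filter_upwards [Ioc_mem_nhdsGT (show (1 : ℝ) < 2 by norm_num)] with s hs
  refine Real.tsum_le_of_sum_le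
    (fun ℓ => mul_nonneg (goodInd_nonneg _ _ ℓ) (Real.rpow_nonneg (Nat.cast_nonneg _) _))
    fun T => ?_
  set T' : Finset ℕ := (T.filter fun ℓ : Nat.Primes => ¬ (ℓ : ℕ) ∣ N).map
    ⟨fun ℓ : Nat.Primes => (ℓ : ℕ), Nat.Primes.coe_nat_injective⟩ with hT'
  have hT'p : ∀ p ∈ T', p.Prime ∧ ¬ p ∣ N := fun p hp => by
    obtain ⟨ℓ, hℓ, rfl⟩ := Finset.mem_map.mp hp
    exact ⟨ℓ.2, (Finset.mem_filter.mp hℓ).2⟩
  have hle : ∀ ℓ : Nat.Primes, ¬ (ℓ : ℕ) ∣ N → goodInd N (fun p => qCoeff f p ∉ Y) ℓ ≤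
      (∑ φ, ‖σ φ (qCoeff f ℓ)‖ ^ 2) / (16 * d) := fun ℓ hℓ => by
    unfold goodInd
    split_ifs with h
    · obtain ⟨φ, hφ⟩ : ∃ φ : K →+* ℂ, 16 * d < ‖σ φ (qCoeff f ℓ)‖ ^ 2 := by
        by_contra hcon
        push Not at hcon
        refine h.2
            ((Set.Finite.mem_toFinset _).mpr ⟨⟨_, (hmem ℓ ℓ.2 hℓ).1⟩, ⟨?_, fun φ => ?_⟩, rfl⟩)
        · exact (isIntegral_algHom_iff (K.val.restrictScalars ℤ)
            (K.val.restrictScalars ℤ).injective).mp (hint ℓ ℓ.2 hℓ)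
        · refine Real.le_sqrt_of_sq_le ?_
          rw [← hσ φ]
          exact hcon φ
      rw [one_le_div (by positivity)]
      exact hφ.le.trans (Finset.single_le_sum (f := fun φ => ‖σ φ (qCoeff f ℓ)‖ ^ 2)
        (fun _ _ => sq_nonneg _) (Finset.mem_univ φ))
    · positivity
  calc ∑ ℓ ∈ T, goodInd N (fun p => qCoeff f p ∉ Y) ℓ * ((ℓ : ℕ) : ℝ) ^ (-s)
      = ∑ ℓ ∈ T.filter (fun ℓ : Nat.Primes => ¬ (ℓ : ℕ) ∣ N),
          goodInd N (fun p => qCoeff f p ∉ Y) ℓ * ((ℓ : ℕ) : ℝ) ^ (-s) := by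
        refine (Finset.sum_filter_of_ne fun ℓ _ h hN => ?_).symm
        exact h (by rw [goodInd, if_neg (fun h' => h'.1 hN), zero_mul])
    _ ≤ ∑ ℓ ∈ T.filter (fun ℓ : Nat.Primes => ¬ (ℓ : ℕ) ∣ N),
          (∑ φ, ‖σ φ (qCoeff f ℓ)‖ ^ 2) / (16 * d) * ((ℓ : ℕ) : ℝ) ^ (-s) :=
        Finset.sum_le_sum fun ℓ hℓ => mul_le_mul_of_nonneg_right
          (hle ℓ (Finset.mem_filter.mp hℓ).2) (Real.rpow_nonneg (Nat.cast_nonneg _) _)
    _ = (∑ φ, ∑ p ∈ T', ‖σ φ (qCoeff f p)‖ ^ 2 * (p : ℝ) ^ (-s)) / (16 * d) := by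
        simp only [hT', Finset.sum_map, Function.Embedding.coeFn_mk]
        rw [Finset.sum_comm, Finset.sum_div]
        exact Finset.sum_congr rfl fun ℓ _ => by rw [div_mul_eq_mul_div, Finset.sum_mul]
    _ ≤ (∑ φ, (logPole s + C φ)) / (16 * d) :=
        div_le_div_of_nonneg_right (Finset.sum_le_sum fun φ _ => hC φ s hs.1 hs.2 T' hT'p)
          (by positivity)
    _ = 1 / 16 * logPole s + (∑ φ, C φ) / (16 * d) := by
        rw [Finset.sum_add_distrib, Finset.sum_const, Finset.card_univ, nsmul_eq_mul, add_div, ← hd]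
        field_simp

end Fermat.Agent.WeightOneGalois
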