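import Mathlib.Analysis.Complex.Cardinality
import Mathlib.FieldTheory.IsAlgClosed.Classification
import Mathlib.LinearAlgebra.Matrix.GeneralLinearGroup.Defs
import Mathlib.RingTheory.WittVector.Complete
import Mathlib.RingTheory.WittVector.DiscreteValuationRing
import Fermat.Agent.WeightOneGalois.Analytic.Values

/-!
# Lifting a representation of a group of order prime to `ℓ`

A set lift over the Witt vectors is improved by averaging: if `s` is multiplicative modulo `p ^ m`
then `g ↦ mean over h of s (g h) (s h)⁻¹` is multiplicative modulo `p ^ (2 m)`.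
-/

noncomputable section

namespace Fermat.Agent.WeightOneGalois

open scoped Classical

section Average

variable {W : Type*} [CommRing W] {A : Type*} [Ring A] [Algebra W A] {G : Type*} [Group G]
  [Fintype G]

/-- The average of `s (g h) t h`. -/
def avgMap (c : W) (s t : G → A) (g : G) : A := c • ∑ h, s (g * h) * t h

/-- Averaging doubles the precision of an approximately multiplicative map. -/
theorem avgMap_spec (π c : W) (hc : c * (Fintype.card G : W) = 1) (s t : G → A) {m : ℕ}
    (hst : ∀ g, s g * t g = 1) (hts : ∀ g, t g * s g = 1)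
    (hs : ∀ g h, ∃ D : A, s (g * h) - s g * s h = π ^ m • D) :
    (∀ g, ∃ D : A, avgMap c s t g - s g = π ^ m • D) ∧
      ∀ g g', ∃ D : A, avgMap c s t (g * g') - avgMap c s t g * avgMap c s t g' =
        π ^ (2 * m) • D := by
  choose D hD using hs
  have hconst : ∀ a : A, c • ∑ _h : G, a = a := fun a => by
    rw [Finset.sum_const, Finset.card_univ, ← Nat.cast_smul_eq_nsmul W, smul_smul, hc, one_smul]
  have h1 : ∀ g, avgMap c s t g - s g = π ^ m • (c • ∑ h, D g h * t h) := fun g => by
    rw [avgMap, smul_comm]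
    nth_rw 1 [← hconst (s g)]
    rw [← smul_sub, ← Finset.sum_sub_distrib, Finset.smul_sum (r := π ^ m)]
    congr 1
    refine Finset.sum_congr rfl fun h _ => ?_
    rw [← smul_mul_assoc, ← hD, sub_mul, mul_assoc, hst, mul_one]
  refine ⟨fun g => ⟨_, h1 g⟩, fun g g' => ?_⟩
  set S := avgMap c s t g with hS
  set T := avgMap c s t g' with hT
  let α : G → A := fun h => s (g * g' * h) * t (g' * h)
  let β : G → A := fun h => s (g' * h) * t h
  have hαβ : c • ∑ h, α h * β h = avgMap c s t (g * g') := by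
    rw [avgMap]
    congr 1
    refine Finset.sum_congr rfl fun h _ => ?_
    simp only [α, β, mul_assoc]
    rw [← mul_assoc (t (g' * h)), hts, one_mul]
  have hα : c • ∑ h, α h = S := by
    rw [hS, avgMap]
    congr 1
    exact Fintype.sum_equiv (Equiv.mulLeft g') _ _ fun h => by simp [α, mul_assoc]
  have hβ : c • ∑ h, β h = T := rfl
  let E : G → A := fun h => D g (g' * h) * t (g' * h) - c • ∑ x, D g x * t x
  let F : G → A := fun h => D g' h * t h - c • ∑ x, D g' x * t x
  have hE : ∀ h, α h - S = π ^ m • E h := fun h => by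
    simp only [E, α, smul_sub, ← h1, ← smul_mul_assoc, ← hD, sub_mul, mul_assoc, hst, mul_one]
    abel
  have hF : ∀ h, β h - T = π ^ m • F h := fun h => by
    simp only [F, β, smul_sub, ← h1, ← smul_mul_assoc, ← hD, sub_mul, mul_assoc, hst, mul_one]
    abel
  refine ⟨c • ∑ h, E h * F h, ?_⟩
  have key : c • ∑ h, (α h - S) * (β h - T) = avgMap c s t (g * g') - S * T := by
    simp only [sub_mul, mul_sub, Finset.sum_sub_distrib, smul_sub, hαβ, ← Finset.sum_mul,
      ← Finset.mul_sum]
    rw [← mul_smul_comm c S, hβ, ← smul_mul_assoc c (∑ i, α i) T, hα, ← smul_mul_assoc, hconst]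
    abel
  rw [← key, smul_comm]
  congr 1
  rw [Finset.smul_sum]
  refine Finset.sum_congr rfl fun h _ => ?_
  rw [hE, hF, smul_mul_smul_comm, ← pow_add, two_mul]

end Average

section Witt

variable {p : ℕ} [Fact p.Prime] {k : Type} [Field k] [CharP k p] [PerfectRing k p]

local notation "W" => WittVector p k
local notation "M₂" => Matrix (Fin 2) (Fin 2) (WittVector p k)

omit [PerfectRing k p] in
theorem isUnit_witt_iff (x : W) : IsUnit x ↔ WittVector.constantCoeff x ≠ 0 :=
  ⟨fun h h0 => not_isUnit_zero (h0 ▸ h.map WittVector.constantCoeff),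
    fun h => WittVector.isUnit_of_coeff_zero_ne_zero x h⟩

omit [PerfectRing k p] in
theorem isUnit_matrix_of_red {A : M₂} {x : GL (Fin 2) k}
    (h : A.map WittVector.constantCoeff = (x : Matrix (Fin 2) (Fin 2) k)) : IsUnit A := by
  rw [Matrix.isUnit_iff_isUnit_det, isUnit_witt_iff,
    show WittVector.constantCoeff A.det = (x : Matrix (Fin 2) (Fin 2) k).det by
      rw [← h, RingHom.map_det]; rfl]
  exact (Matrix.GeneralLinearGroup.det x).ne_zero

/-- A representation over a perfect field of a group of order prime to the characteristic lifts to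
the Witt vectors. -/
theorem exists_witt_lift {G : Type} [Group G] [Fintype G] (r : G →* GL (Fin 2) k)
    (hG : ¬ p ∣ Fintype.card G) :
    ∃ L : G →* M₂, ∀ g, (L g).map WittVector.constantCoeff = (r g : Matrix (Fin 2) (Fin 2) k) := by
  set π : W := (p : W) with hπ
  have hcard : IsUnit ((Fintype.card G : W)) := by
    rw [isUnit_witt_iff, map_natCast]
    exact fun h => hG ((CharP.cast_eq_zero_iff k p _).mp h)
  obtain ⟨c, hc⟩ := hcard.exists_left_inv
  let Good : ℕ → (G → M₂) → Prop := fun n s =>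
    (∀ g, (s g).map WittVector.constantCoeff = (r g : Matrix (Fin 2) (Fin 2) k)) ∧
      ∀ g h, ∃ D : M₂, s (g * h) - s g * s h = π ^ (n + 1) • D
  have hdiv : ∀ A : M₂, A.map WittVector.constantCoeff = 0 → ∃ D : M₂, A = π ^ 1 • D :=
    fun A hA => by
    have : ∀ i j, π ∣ A i j := fun i j => Ideal.mem_span_singleton.mp
      ((WittVector.mem_span_p_iff_coeff_zero_eq_zero _).mpr (congrFun (congrFun hA i) j))
    choose D hD using this
    exact ⟨Matrix.of D, Matrix.ext fun i j => by
      rw [Matrix.smul_apply, pow_one, smul_eq_mul]; exact hD i j⟩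
  have hπ0 : WittVector.constantCoeff π = 0 := by rw [hπ, map_natCast, CharP.cast_eq_zero]
  choose ch hch using fun x : k => WittVector.constantCoeff_surjective p (R := k) x
  let s0 : G → M₂ := fun g => Matrix.of fun i j => ch ((r g : Matrix (Fin 2) (Fin 2) k) i j)
  have hs0 : ∀ g, (s0 g).map WittVector.constantCoeff = (r g : Matrix (Fin 2) (Fin 2) k) :=
    fun g => by ext i j; exact hch _
  have h0 : Good 0 s0 := ⟨hs0, fun g h => hdiv _ <| by
    rw [Matrix.map_sub _ (map_sub _), Matrix.map_mul, hs0, hs0, hs0, map_mul, Units.val_mul,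
      sub_self]⟩
  have hstep : ∀ n s, Good n s → ∃ s', Good (n + 1) s' ∧
      ∀ g, ∃ D : M₂, s' g - s g = π ^ (n + 1) • D := by
    intro n s hs
    have hu : ∀ g, IsUnit (s g) := fun g => isUnit_matrix_of_red (hs.1 g)
    obtain ⟨ha, hb⟩ := avgMap_spec π c hc s (fun g => ↑(hu g).unit⁻¹) (m := n + 1)
      (fun g => (hu g).mul_val_inv) (fun g => (hu g).val_inv_mul) hs.2
    refine ⟨_, ⟨fun g => ?_, fun g h => ?_⟩, ha⟩
    · obtain ⟨D, hD⟩ := ha g
      rw [← hs.1 g, sub_eq_iff_eq_add.mp hD, Matrix.map_add _ (map_add _)]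
      refine Matrix.ext fun i j => ?_
      simp only [Matrix.add_apply, Matrix.map_apply, Matrix.smul_apply, smul_eq_mul, map_mul,
        map_pow, hπ0, zero_pow (Nat.succ_ne_zero n), zero_mul, zero_add]
    · obtain ⟨D, hD⟩ := hb g h
      exact ⟨π ^ n • D, by rw [hD, smul_smul, ← pow_add]; congr 2; omega⟩
  choose next hnext hclose using hstep
  let seq : ∀ n, {s : G → M₂ // Good n s} := fun n =>
    Nat.rec (motive := fun n => {s : G → M₂ // Good n s}) ⟨s0, h0⟩
      (fun n s => ⟨next n s.1 s.2, hnext n s.1 s.2⟩) n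
  let I : Ideal W := Ideal.span {π}
  have hI : ∀ n x, x ∈ (I ^ n • ⊤ : Submodule W W) ↔ π ^ n ∣ x := fun n x => by
    rw [smul_eq_mul, Ideal.mul_top, Ideal.span_singleton_pow, Ideal.mem_span_singleton]
  have hcauchy : ∀ (g : G) (i j : Fin 2) {m n : ℕ}, m ≤ n →
      π ^ m ∣ (seq m).1 g i j - (seq n).1 g i j := by
    intro g i j m n hmn
    induction n, hmn using Nat.le_induction with
    | base => simp
    | succ n hn ih =>
      obtain ⟨D, hD⟩ := hclose n (seq n).1 (seq n).2 g
      have e := congrFun (congrFun hD i) j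
      rw [Matrix.sub_apply, Matrix.smul_apply, smul_eq_mul] at e
      have h2 : π ^ m ∣ (seq (n + 1)).1 g i j - (seq n).1 g i j :=
        (show (seq (n + 1)).1 g i j - (seq n).1 g i j = _ from e) ▸
          dvd_mul_of_dvd_left (pow_dvd_pow π (by omega)) _
      simpa using dvd_sub ih h2
  have hlim : ∀ (g : G) (i j : Fin 2), ∃ x : W, ∀ n, π ^ n ∣ (seq n).1 g i j - x := fun g i j => by
    obtain ⟨x, hx⟩ := IsPrecomplete.prec (I := I) (M := W) inferInstance
      (f := fun n => (seq n).1 g i j) (fun {m n} hmn => by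
        rw [SModEq.sub_mem, hI]; exact hcauchy g i j hmn)
    exact ⟨x, fun n => (hI n _).mp (SModEq.sub_mem.mp (hx n))⟩
  choose L hL using hlim
  let Lm : G → M₂ := fun g => Matrix.of (L g)
  have hLc : ∀ g n, ∃ D : M₂, (seq n).1 g - Lm g = π ^ n • D := fun g n => by
    choose D hD using fun i j => hL g i j n
    exact ⟨Matrix.of D, Matrix.ext fun i j => hD i j⟩
  have hred : ∀ g, (Lm g).map WittVector.constantCoeff = (r g : Matrix (Fin 2) (Fin 2) k) :=
    fun g => by
    obtain ⟨D, hD⟩ := hLc g 1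
    rw [← (seq 1).2.1 g, sub_eq_iff_eq_add.mp hD, Matrix.map_add _ (map_add _)]
    refine Matrix.ext fun i j => ?_
    simp only [Matrix.add_apply, Matrix.map_apply, Matrix.smul_apply, smul_eq_mul, map_mul,
      hπ0, pow_one, zero_mul, zero_add]
  have hmul : ∀ g h, Lm (g * h) = Lm g * Lm h := fun g h => by
    refine Matrix.ext fun i j => ?_
    refine sub_eq_zero.mp (IsHausdorff.haus (I := I) (M := W) inferInstance _ fun n => ?_)
    rw [SModEq.zero, hI]
    obtain ⟨D, hD⟩ := (seq n).2.2 g h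
    obtain ⟨D1, hD1⟩ := hLc (g * h) n
    obtain ⟨D2, hD2⟩ := hLc g n
    obtain ⟨D3, hD3⟩ := hLc h n
    have e : Lm (g * h) - Lm g * Lm h =
        π ^ n • (π • D - D1 + D2 * (seq n).1 h + Lm g * D3) := by
      rw [smul_add, smul_add, smul_sub, smul_smul, ← pow_succ, ← hD, ← hD1, ← smul_mul_assoc,
        ← hD2, ← mul_smul_comm, ← hD3]
      noncomm_ring
    rw [← Matrix.sub_apply, e, Matrix.smul_apply, smul_eq_mul]
    exact dvd_mul_right _ _
  have hone : Lm 1 = 1 :=
    (isUnit_matrix_of_red (hred 1)).mul_left_cancel (by rw [← hmul, mul_one, mul_one])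
  exact ⟨⟨⟨Lm, hone⟩, hmul⟩, hred⟩

omit [Fact (Nat.Prime p)] [Field k] [CharP k p] [PerfectRing k p] in
theorem mk_witt (hk : Cardinal.mk k = Cardinal.aleph0) : Cardinal.mk W = Cardinal.continuum := by
  rw [Cardinal.mk_congr (β := ℕ → k) ⟨WittVector.coeff, WittVector.mk p, fun x => by ext; simp,
    fun f => by ext; simp⟩, ← Cardinal.power_def, hk, Cardinal.mk_nat,
    Cardinal.aleph0_power_aleph0]

omit [PerfectRing k p] in
/-- The Witt vectors of a countable field embed in `ℂ`. -/
theorem exists_witt_embedding (hk : Cardinal.mk k = Cardinal.aleph0) :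
    ∃ ψ : W →+* ℂ, Function.Injective ψ := by
  have : CharZero W := charZero_of_inj_zero fun n hn => by
    by_contra h0
    obtain ⟨a, m, hm, rfl⟩ := Nat.exists_eq_pow_mul_and_not_dvd h0 p (Fact.out : p.Prime).ne_one
    rw [Nat.cast_mul, Nat.cast_pow, mul_eq_zero] at hn
    refine hn.elim (fun h => pow_ne_zero _ (WittVector.p_nonzero p k) h) fun h => ?_
    have hm' : IsUnit (m : W) := by
      rw [isUnit_witt_iff, map_natCast]
      exact fun h' => hm ((CharP.cast_eq_zero_iff k p m).mp h')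
    exact not_isUnit_zero (h ▸ hm')
  let F := FractionRing W
  have : CharZero F := charZero_of_injective_algebraMap (IsFractionRing.injective W F)
  let Ω := AlgebraicClosure F
  have hΩ0 : CharZero Ω := charZero_of_injective_algebraMap (algebraMap F Ω).injective
  have hF : Cardinal.mk F = Cardinal.continuum := by
    rw [← mk_witt (p := p) hk]
    exact FractionRing.cardinalMk W
  have hΩ : Cardinal.mk Ω = Cardinal.continuum := by
    refine le_antisymm ?_ (hF ▸ Cardinal.mk_le_of_injective (algebraMap F Ω).injective)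
    refine (Algebra.IsAlgebraic.cardinalMk_le_max F Ω).trans
        (max_le hF.le Cardinal.aleph0_le_continuum)
  obtain ⟨e⟩ := IsAlgClosed.ringEquiv_of_equiv_of_charZero (K := Ω) (L := ℂ)
    (by rw [hΩ]; exact Cardinal.aleph0_lt_continuum)
    (Cardinal.eq.mp (by rw [hΩ, Cardinal.mk_complex]))
  refine ⟨(e.toRingHom.comp (algebraMap F Ω)).comp (algebraMap W F), ?_⟩
  exact (e.injective.comp (algebraMap F Ω).injective).comp (IsFractionRing.injective W F)

end Witt

/-- An eigenvalue of a matrix of finite order is a root of unity. -/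
theorem exists_roots_trace_det {M : Matrix (Fin 2) (Fin 2) ℂ} {n : ℕ} (hM : M ^ n = 1) :
    ∃ α β : ℂ, α ^ n = 1 ∧ β ^ n = 1 ∧ M.trace = α + β ∧ M.det = α * β := by
  have key : ∀ α : ℂ, α ^ 2 - M.trace * α + M.det = 0 → α ^ n = 1 := fun α hα => by
    obtain ⟨v, hv, hMv⟩ := Matrix.exists_mulVec_eq_zero_iff.mpr (show (M - α • 1).det = 0 by
      rw [Matrix.det_fin_two, Matrix.trace_fin_two] at hα
      simp [Matrix.det_fin_two]
      linear_combination hα)
    rw [Matrix.sub_mulVec, Matrix.smul_mulVec, Matrix.one_mulVec, sub_eq_zero] at hMv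
    have hpow : ∀ i : ℕ, (M ^ i).mulVec v = α ^ i • v := fun i => by
      induction i with
      | zero => simp
      | succ i ih => rw [pow_succ, ← Matrix.mulVec_mulVec, hMv, Matrix.mulVec_smul, ih, smul_smul,
          pow_succ']
    have := hpow n
    rw [hM, Matrix.one_mulVec] at this
    exact smul_left_injective ℂ hv (this.symm.trans (one_smul ℂ v).symm)
  obtain ⟨α, hα⟩ := IsAlgClosed.exists_eq_mul_self (M.trace ^ 2 - 4 * M.det)
  refine ⟨(M.trace + α) / 2, (M.trace - α) / 2, key _ ?_, key _ ?_, by ring, ?_⟩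
  · linear_combination (-1 / 4 : ℂ) * hα
  · linear_combination (-1 / 4 : ℂ) * hα
  · linear_combination (-1 / 4 : ℂ) * hα

/-- Two primitive roots of unity are conjugate by an endomorphism of `ℂ`. -/
theorem exists_ringHom_map_primitive {n : ℕ} (hn : 0 < n) {z ζ : ℂ} (hz : IsPrimitiveRoot z n)
    (hζ : IsPrimitiveRoot ζ n) : ∃ σ : ℂ →+* ℂ, σ z = ζ := by
  have hint : IsIntegral ℚ z := (hz.isIntegral hn).tower_top
  have := IntermediateField.adjoin.finiteDimensional hint
  have hroot : ζ ∈ (minpoly ℚ z).aroots ℂ := by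
    rw [Polynomial.mem_aroots, ← Polynomial.cyclotomic_eq_minpoly_rat hz hn]
    exact ⟨Polynomial.cyclotomic_ne_zero n ℚ, by
      rw [Polynomial.aeval_def, ← Polynomial.eval_map, Polynomial.map_cyclotomic]
      exact hζ.isRoot_cyclotomic hn⟩
  set φ := (IntermediateField.algHomAdjoinIntegralEquiv ℚ hint).symm ⟨ζ, hroot⟩ with hφ
  obtain ⟨σ, hσ⟩ := exists_ringHom_extend φ.toRingHom
  refine ⟨σ, ?_⟩
  have := hσ (IntermediateField.AdjoinSimple.gen ℚ z)
  rw [IntermediateField.AdjoinSimple.coe_gen] at this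
  rw [this]
  exact IntermediateField.algHomAdjoinIntegralEquiv_symm_apply_gen ℚ hint ⟨ζ, hroot⟩

/-- A representation modulo `ℓ` of a group of order prime to `ℓ` lifts to `ℂ`, compatibly with a
given reduction of the algebraic integers. -/
theorem exists_charP_lift {ℓ : ℕ} [Fact ℓ.Prime] {k : Type} [Field k] [IsAlgClosed k] [CharP k ℓ]
    (hk : Cardinal.mk k = Cardinal.aleph0) (φ : integralClosure ℤ ℂ →+* k) {G : Type} [Group G]
    [Fintype G] (r : G →* GL (Fin 2) k) (hG : ¬ ℓ ∣ Fintype.card G) :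
    ∃ L : G →* GL (Fin 2) ℂ, ∀ g, ∃ u w : integralClosure ℤ ℂ,
      u ^ Fintype.card G = 1 ∧ w ^ Fintype.card G = 1 ∧
      (L g : Matrix (Fin 2) (Fin 2) ℂ).trace = ((u : ℂ) + w) ∧
      (L g : Matrix (Fin 2) (Fin 2) ℂ).det = ((u : ℂ) * w) ∧
      (r g : Matrix (Fin 2) (Fin 2) k).trace = φ (u + w) ∧
      (r g : Matrix (Fin 2) (Fin 2) k).det = φ (u * w) := by
  set n := Fintype.card G with hn
  have hn0 : 0 < n := Fintype.card_pos
  have : NeZero n := ⟨hn0.ne'⟩
  have : NeZero (n : k) := ⟨fun h => hG ((CharP.cast_eq_zero_iff k ℓ n).mp h)⟩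
  obtain ⟨ζ, hζ⟩ : ∃ ζ : ℂ, IsPrimitiveRoot ζ n := ⟨_, Complex.isPrimitiveRoot_exp n hn0.ne'⟩
  let ζI : integralClosure ℤ ℂ := ⟨ζ, hζ.isIntegral hn0⟩
  have hζI : IsPrimitiveRoot ζI n := IsPrimitiveRoot.of_map_of_injective
    (f := (integralClosure ℤ ℂ).val) hζ Subtype.val_injective
  have hζk : IsPrimitiveRoot (φ ζI) n := by
    rw [← Polynomial.isRoot_cyclotomic_iff, ← Polynomial.map_cyclotomic n φ]
    exact (hζI.isRoot_cyclotomic hn0).map
  obtain ⟨L0, hL0⟩ := exists_witt_lift r hG
  obtain ⟨ψ, hψ⟩ := exists_witt_embedding (p := ℓ) hk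
  set z : WittVector ℓ k := WittVector.teichmuller ℓ (φ ζI) with hz
  have hzp : IsPrimitiveRoot z n := hζk.map_of_injective
    (Function.LeftInverse.injective (g := fun x : WittVector ℓ k => x.coeff 0)
      (fun a => WittVector.teichmuller_coeff_zero ℓ a))
  obtain ⟨σ, hσ⟩ := exists_ringHom_map_primitive hn0 (hzp.map_of_injective hψ) hζ
  let τ : WittVector ℓ k →+* ℂ := σ.comp ψ
  have hτ : Function.Injective τ := σ.injective.comp hψ
  let L : G →* GL (Fin 2) ℂ := (τ.mapMatrix.toMonoidHom.comp L0).toHomUnits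
  refine ⟨L, fun g => ?_⟩
  have hpow : (L g : Matrix (Fin 2) (Fin 2) ℂ) ^ n = 1 := by
    rw [← Units.val_pow_eq_pow_val, ← map_pow, hn, pow_card_eq_one, map_one, Units.val_one]
  obtain ⟨α, β, hα, hβ, htr, hdet⟩ := exists_roots_trace_det hpow
  obtain ⟨i, -, rfl⟩ := hζ.eq_pow_of_pow_eq_one hα
  obtain ⟨j, -, rfl⟩ := hζ.eq_pow_of_pow_eq_one hβ
  have hval : (L g : Matrix (Fin 2) (Fin 2) ℂ) = (L0 g).map τ := rfl
  have hτz : τ z = ζ := hσ
  have htr0 : (L0 g).trace = z ^ i + z ^ j := hτ (by
    rw [map_add, map_pow, map_pow, hτz, ← htr, hval]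
    exact AddMonoidHom.map_trace τ.toAddMonoidHom _)
  have hdet0 : (L0 g).det = z ^ i * z ^ j := hτ (by
    rw [map_mul, map_pow, map_pow, hτz, ← hdet, hval, RingHom.map_det]
    rfl)
  refine ⟨ζI ^ i, ζI ^ j, ?_, ?_, htr, hdet, ?_, ?_⟩
  · rw [← pow_mul, mul_comm, pow_mul, hζI.pow_eq_one, one_pow]
  · rw [← pow_mul, mul_comm, pow_mul, hζI.pow_eq_one, one_pow]
  · rw [← hL0 g]
    refine ((AddMonoidHom.map_trace WittVector.constantCoeff.toAddMonoidHom (L0 g)).symm.trans ?_)
    show WittVector.constantCoeff (L0 g).trace = _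
    rw [htr0, map_add, map_pow, map_pow, map_add, map_pow, map_pow, hz,
      WittVector.constantCoeff_apply, WittVector.teichmuller_coeff_zero]
  · rw [← hL0 g]
    refine (RingHom.map_det WittVector.constantCoeff (L0 g)).symm.trans ?_
    rw [hdet0, map_mul, map_pow, map_pow, map_mul, map_pow, map_pow, hz,
      WittVector.constantCoeff_apply, WittVector.teichmuller_coeff_zero]

end Fermat.Agent.WeightOneGalois
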