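import Fermat.Agent.WeightOneGalois.Analytic.Frobenius
import Fermat.Agent.WeightOneGalois.Analytic.GroupBound
import Fermat.Agent.WeightOneGalois.Analytic.Lift
import Fermat.Agent.WeightOneGalois.Period.Form

/-!
# The Artin representation of a weight-one eigenform

The images modulo `ℓ` have bounded order, so they lift to `ℂ`; congruences between finitely many
values become equalities for large `ℓ`, and two large primes give every good prime.
-/

noncomputable section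

namespace Fermat.Agent.WeightOneGalois

open Filter Topology CongruenceSubgroup
open Gal (AbsGal)
open ModularFormClass (qCoeff)
open Matrix
open scoped Classical MatrixGroups

local notation "𝔸" => integralClosure ℤ ℂ
local notation "Qbar" => AlgebraicClosure ℚ

/-! ### Finite groups -/

/-- A surjection of finite groups scales the count of a property by a constant factor. -/
theorem card_filter_map_surjective {G H : Type*} [Group G] [Fintype G] [Group H] [Fintype H]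
    (f : G →* H) (hf : Function.Surjective f) (P : H → Prop) :
    ∃ c : ℕ, 0 < c ∧ (Finset.univ.filter fun x => P (f x)).card = (Finset.univ.filter P).card * c ∧
      Fintype.card G = Fintype.card H * c := by
  set c := (Finset.univ.filter fun x => f x = 1).card with hc
  have hfib : ∀ y, (Finset.univ.filter fun x => f x = y).card = c := fun y =>
    MonoidHom.card_fiber_eq_of_mem_range f (hf y) ⟨1, map_one f⟩
  have hsum : ∀ Q : H → Prop, (Finset.univ.filter fun x => Q (f x)).card =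
      (Finset.univ.filter Q).card * c := fun Q => by
    rw [Finset.card_eq_sum_card_fiberwise (f := f) (t := Finset.univ.filter Q)
      (fun x hx => Finset.mem_filter.mpr ⟨Finset.mem_univ _, (Finset.mem_filter.mp hx).2⟩),
      Finset.sum_const_nat (m := c)]
    intro y hy
    rw [← hfib y, Finset.filter_filter]
    refine congrArg Finset.card (Finset.filter_congr fun x _ => ?_)
    exact ⟨fun h => h.2, fun h => ⟨h ▸ (Finset.mem_filter.mp hy).2, h⟩⟩
  refine ⟨c, Finset.card_pos.mpr ⟨1, Finset.mem_filter.mpr ⟨Finset.mem_univ _, map_one f⟩⟩,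
    hsum P, ?_⟩
  simpa using hsum fun _ => True

/-- An element of finite order of `GL₂(ℂ)` with trace `2` and determinant `1` is trivial. -/
theorem eq_one_of_trace_det {M : Matrix (Fin 2) (Fin 2) ℂ} {n : ℕ} (hn : n ≠ 0) (hM : M ^ n = 1)
    (ht : M.trace = 2) (hd : M.det = 1) : M = 1 := by
  set X := M - 1 with hX
  have hX2 : X * X = 0 := by
    rw [Matrix.trace_fin_two] at ht
    rw [Matrix.det_fin_two] at hd
    ext i j
    fin_cases i <;> fin_cases j <;> simp [hX, Matrix.mul_apply, Fin.sum_univ_two]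
    · linear_combination (M 0 0) * ht - hd
    · linear_combination (M 0 1) * ht
    · linear_combination (M 1 0) * ht
    · linear_combination (M 1 1) * ht - hd
  have hpow : ∀ i : ℕ, M ^ i = 1 + i • X := fun i => by
    induction i with
    | zero => simp
    | succ i ih =>
      rw [pow_succ, ih, show M = 1 + X by simp [hX], add_mul, mul_add, mul_add, smul_mul_assoc,
        smul_mul_assoc, hX2, smul_zero, add_nsmul, one_nsmul]
      noncomm_ring
  have h := hpow n
  rw [hM, eq_comm, add_eq_left] at h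
  have : X = 0 := by
    rw [← Nat.cast_smul_eq_nsmul ℂ] at h
    exact (smul_eq_zero.mp h).resolve_left (Nat.cast_ne_zero.mpr hn)
  exact sub_eq_zero.mp this

theorem trDet_one {k : Type} [Field k] : trDet (1 : GL (Fin 2) k) = (2, 1) := by
  simp [trDet]

theorem trDet_inv_eq_iff {k : Type} [Field k] {x y : GL (Fin 2) k} :
    trDet x⁻¹ = trDet y⁻¹ ↔ trDet x = trDet y := by
  refine ⟨fun h => ?_, fun h => by rw [trDet_inv, trDet_inv, h]⟩
  rw [← inv_inv x, trDet_inv, h, ← trDet_inv, inv_inv]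

/-! ### Large characteristic separates finitely many integers -/

/-- Reductions in large characteristic separate a finite set of algebraic integers. -/
theorem exists_bound_separate (R : Finset 𝔸) :
    ∃ B : ℕ, ∀ ℓ : ℕ, B < ℓ → ∀ (k : Type) [Field k] [CharP k ℓ] (φ : 𝔸 →+* k),
      ∀ x ∈ R, ∀ y ∈ R, φ x = φ y → x = y := by
  have h1 : ∀ z : 𝔸, z ≠ 0 → ∃ c : ℕ, c ≠ 0 ∧
      ∀ (ℓ : ℕ) (k : Type) [Field k] [CharP k ℓ] (φ : 𝔸 →+* k), φ z = 0 → ℓ ∣ c := by
    intro z hz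
    have hint : IsIntegral ℤ z := Algebra.IsIntegral.isIntegral z
    have hc0 : (minpoly ℤ z).coeff 0 ≠ 0 := fun h => hz <| by
      have e : minpoly ℤ z = Polynomial.X :=
        Polynomial.eq_of_monic_of_associated (minpoly.monic hint) Polynomial.monic_X
          (Polynomial.irreducible_X.associated_of_dvd (minpoly.irreducible hint)
            (Polynomial.X_dvd_iff.mpr h)).symm
      have h' := minpoly.aeval ℤ z
      rwa [e, Polynomial.aeval_X] at h'
    refine ⟨((minpoly ℤ z).coeff 0).natAbs, Int.natAbs_ne_zero.mpr hc0, fun ℓ k _ _ φ h0 => ?_⟩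
    have h := congrArg φ (minpoly.aeval ℤ z)
    rw [map_zero, Polynomial.aeval_def, Polynomial.hom_eval₂, h0, Polynomial.eval₂_at_zero,
      RingHom.comp_apply, eq_intCast, map_intCast, CharP.intCast_eq_zero_iff k ℓ] at h
    exact Int.natCast_dvd.mp h
  choose c hc hcφ using h1
  refine ⟨(R ×ˢ R).sup fun p => if h : p.1 - p.2 = 0 then 0 else c _ h,
    fun ℓ hℓ k _ _ φ x hx y hy h => ?_⟩
  by_contra hne
  have hz : x - y ≠ 0 := sub_ne_zero.mpr hne
  have hle : c (x - y) hz ≤ (R ×ˢ R).sup fun p => if h : p.1 - p.2 = 0 then 0 else c _ h := by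
    refine le_trans ?_ (Finset.le_sup (f := fun p : 𝔸 × 𝔸 => if h : p.1 - p.2 = 0 then 0 else c _ h)
      (Finset.mk_mem_product hx hy))
    rw [dif_neg hz]
  have := Nat.le_of_dvd (Nat.pos_of_ne_zero (hc _ hz))
    (hcφ _ hz ℓ k φ (by rw [map_sub, h, sub_self]))
  omega

/-- The algebraic integers map to an algebraic closure of `𝔽_ℓ`. -/
theorem nonempty_residueMap (ℓ : ℕ) [Fact ℓ.Prime] :
    Nonempty (𝔸 →+* AlgebraicClosure (ZMod ℓ)) := by
  have hne : Ideal.span {(ℓ : 𝔸)} ≠ ⊤ := by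
    rw [Ne, Ideal.span_singleton_eq_top]
    rintro ⟨u, hu⟩
    have h1 : IsIntegral ℤ ((ℓ : ℂ)⁻¹) := by
      have e : ((↑u⁻¹ : 𝔸) : ℂ) = (ℓ : ℂ)⁻¹ := by
        refine eq_inv_of_mul_eq_one_left ?_
        have := congrArg (Subtype.val : 𝔸 → ℂ) u.inv_mul
        rw [hu] at this
        simpa using this
      exact e ▸ (↑u⁻¹ : 𝔸).2
    have h2 : IsIntegral ℤ ((ℓ : ℚ)⁻¹) := by
      rw [← isIntegral_algebraMap_iff (B := ℂ) (algebraMap ℚ ℂ).injective]
      simpa using h1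
    obtain ⟨z, hz⟩ := IsIntegrallyClosed.isIntegral_iff.mp h2
    have h3 : (z : ℚ) * ℓ = 1 := by
      rw [show (z : ℚ) = (ℓ : ℚ)⁻¹ by simpa using hz,
        inv_mul_cancel₀ (Nat.cast_ne_zero.mpr (Fact.out : ℓ.Prime).ne_zero)]
    have h4 : z * (ℓ : ℤ) = 1 := by exact_mod_cast h3
    have h5 := Int.isUnit_iff.mp (IsUnit.of_mul_eq_one_right z h4)
    have h6 := (Fact.out : ℓ.Prime).two_le
    omega
  obtain ⟨P, hP, hle⟩ := Ideal.exists_le_maximal _ hne
  let := Ideal.Quotient.field P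
  have hℓP : (ℓ : 𝔸 ⧸ P) = 0 := by
    rw [← map_natCast (Ideal.Quotient.mk P), Ideal.Quotient.eq_zero_iff_mem]
    exact hle (Ideal.mem_span_singleton_self _)
  have : CharP (𝔸 ⧸ P) ℓ := by
    obtain ⟨q, hq⟩ := CharP.exists (𝔸 ⧸ P)
    rcases (Nat.dvd_prime Fact.out).mp ((CharP.cast_eq_zero_iff (𝔸 ⧸ P) q ℓ).mp hℓP) with h | h
    · exact absurd h (CharP.char_ne_one (𝔸 ⧸ P) q)
    · exact h ▸ hq
  let := ZMod.algebra (𝔸 ⧸ P) ℓ
  have : Algebra.IsIntegral ℤ (𝔸 ⧸ P) :=
    ⟨fun x => by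
      obtain ⟨y, rfl⟩ := Ideal.Quotient.mk_surjective x
      exact (Algebra.IsIntegral.isIntegral y).map (Ideal.Quotient.mkₐ ℤ P)⟩
  have : Algebra.IsIntegral (ZMod ℓ) (𝔸 ⧸ P) := Algebra.IsIntegral.tower_top ℤ
  have : Algebra.IsAlgebraic (ZMod ℓ) (𝔸 ⧸ P) := inferInstance
  exact ⟨(IsAlgClosed.lift : (𝔸 ⧸ P) →ₐ[ZMod ℓ] AlgebraicClosure (ZMod ℓ)).toRingHom.comp
    (Ideal.Quotient.mk P)⟩

theorem mk_algClosure_zmod (ℓ : ℕ) [Fact ℓ.Prime] :
    Cardinal.mk (AlgebraicClosure (ZMod ℓ)) = Cardinal.aleph0 := by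
  refine le_antisymm ?_ (Cardinal.infinite_iff.mp inferInstance)
  exact (Algebra.IsAlgebraic.cardinalMk_le_max (ZMod ℓ) _).trans
    (max_le (Cardinal.mk_le_aleph0) le_rfl)

/-- Dirichlet: arbitrarily large primes `≡ 11 (mod 12)`. -/
theorem exists_prime_eleven (n : ℕ) : ∃ ℓ ≥ n, ℓ.Prime ∧ ℓ % 12 = 11 := by
  obtain ⟨ℓ, h1, hℓ, h2⟩ := Nat.forall_exists_prime_gt_and_modEq n (q := 12) (a := 11)
    (by norm_num) (by norm_num)
  exact ⟨ℓ, h1.le, hℓ, h2⟩

/-! ### The representation -/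

section

variable {N : ℕ} [NeZero N] {ε : DirichletCharacter ℂ N} {f : CuspForm (Gamma1 N) 1}

/-- `ρ` has finite image and, at every prime not dividing `m`, is unramified with the trace and
determinant of Frobenius prescribed by `f` and `ε`. -/
def Attached (ε : DirichletCharacter ℂ N) (f : CuspForm (Gamma1 N) 1) (m : ℕ)
    (ρ : AbsGal →* GL (Fin 2) ℂ) : Prop :=
  GaloisFactorsThroughFiniteLevel ρ ∧ ∀ p : ℕ, p.Prime → ¬ p ∣ m →
    ∀ A : ValuationSubring Qbar, A.LiesOverPrime p → (∀ σ ∈ A.inertiaSubgroupIn ℚ, ρ σ = 1) ∧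
      ∀ σ : AbsGal, A.IsFrobeniusAt σ p → trDet (ρ σ) = (qCoeff f p, ε (p : ZMod N))

/-- For large `ℓ ≡ 11 (mod 12)` the semisimplification modulo `ℓ` has bounded order and lifts to
`ℂ`; its Frobenius traces and determinants are congruent to those of `f`, with eigenvalues in a
finite set `μ` of roots of unity independent of `ℓ`. -/
theorem exists_lifted (hA : WeightOneArith) (hM : ModLReps) (hE : IsEigen ε f) :
    ∃ (B : ℕ) (μ : Finset 𝔸), ∀ ℓ : ℕ, ℓ.Prime → B < ℓ → ℓ % 12 = 11 →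
      ∃ (k : Type) (_ : Field k) (_ : CharP k ℓ) (φ : 𝔸 →+* k) (ρ : AbsGal →* GL (Fin 2) ℂ),
        GaloisFactorsThroughFiniteLevel ρ ∧ ∀ p : ℕ, p.Prime → ¬ p ∣ N * ℓ →
          ∀ A : ValuationSubring Qbar, A.LiesOverPrime p →
            (∀ σ ∈ A.inertiaSubgroupIn ℚ, ρ σ = 1) ∧
            ∀ σ : AbsGal, A.IsFrobeniusAt σ p → ∃ a : 𝔸, (a : ℂ) = qCoeff f p ∧
              ∃ u ∈ μ, ∃ w ∈ μ, trDet (ρ σ) = ((u : ℂ) + w, (u : ℂ) * w) ∧
                φ (u + w) = φ a ∧ φ (u * w) = φ (charB ε (p : ZMod N)) := by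
  obtain ⟨Y, C, hY⟩ := exists_small_values hA hE
  obtain ⟨hint, -, -⟩ := hA N ε f hE
  obtain ⟨B₀, hB₀⟩ := hM N ε f hE
  set YI : Finset 𝔸 := Y.preimage (fun x : 𝔸 => (x : ℂ)) Subtype.val_injective.injOn with hYI
  set EI : Finset 𝔸 := Finset.univ.image (charB ε) with hEI
  set M := 2 * ((YI ×ˢ EI).card) with hM'
  set D := 2 * M ^ 4 + 3 * M with hD
  set μ : Finset 𝔸 := (Polynomial.nthRoots D.factorial (1 : 𝔸)).toFinset with hμ
  refine ⟨max B₀ D, μ, fun ℓ hℓ hB h12 => ?_⟩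
  simp only [max_lt_iff] at hB
  have : Fact ℓ.Prime := ⟨hℓ⟩
  set k := AlgebraicClosure (ZMod ℓ)
  have : CharP k ℓ := charP_of_injective_algebraMap (algebraMap (ZMod ℓ) k).injective ℓ
  obtain ⟨φ⟩ := nonempty_residueMap ℓ
  obtain ⟨τ, hτfl, hτ⟩ := hB₀ ℓ hℓ hB.1 h12 k φ
  obtain ⟨r, hss, hker, htd⟩ := exists_isSS τ
  obtain ⟨L, hLfd, hLgal, hL⟩ := exists_galois_level τ hτfl
  obtain ⟨rN, hrN⟩ := exists_descend L r fun σ hσ => hker σ (hL σ hσ)
  have hrange : r.range = rN.range := by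
    ext y
    constructor
    · rintro ⟨σ, rfl⟩; exact ⟨_, hrN σ⟩
    · rintro ⟨x, rfl⟩
      obtain ⟨σ, rfl⟩ := AlgEquiv.restrictNormalHom_surjective (K₁ := L) Qbar x
      exact ⟨σ, (hrN σ).symm⟩
  have : Finite r.range := by
    rw [hrange]
    exact Finite.of_surjective _ rN.rangeRestrict_surjective
  let := Fintype.ofFinite r.range
  let g : Gal(L/ℚ) →* r.range := rN.codRestrict _ fun x => hrange ▸ ⟨x, rfl⟩
  have hg : Function.Surjective g := by
    rintro ⟨y, hy⟩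
    obtain ⟨x, hx⟩ := hrange ▸ hy
    exact ⟨x, Subtype.ext hx⟩
  -- the values at good primes
  have hfrob : ∀ p : ℕ, p.Prime → ¬ p ∣ N * ℓ → ∀ A : ValuationSubring Qbar, A.LiesOverPrime p →
      ∀ σ : AbsGal, A.IsFrobeniusAt σ p → ∃ a : 𝔸, (a : ℂ) = qCoeff f p ∧
        trDet (r σ) = (φ a, φ (charB ε (p : ZMod N))) := by
    intro p hp hpm A hAp σ hσ
    refine ⟨⟨_, hint p hp fun h => hpm (h.mul_right ℓ)⟩, rfl, ?_⟩
    obtain ⟨h1, h2⟩ := (hτ p hp hpm A hAp).2 σ hσ ⟨_, hint p hp fun h => hpm (h.mul_right ℓ)⟩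
      (charB ε (p : ZMod N)) rfl rfl
    exact Prod.ext ((htd σ).1.trans h1) ((htd σ).2.trans h2)
  -- the bound on the image
  set S₀ : Finset (k × k) := (YI ×ˢ EI).image fun p => (φ p.1, φ p.2) with hS₀
  set S : Finset (k × k) := S₀ ∪ S₀.image fun q => (q.1 * q.2⁻¹, q.2⁻¹) with hS
  have hScard : S.card ≤ M := by
    have h1 : S₀.card ≤ (YI ×ˢ EI).card := Finset.card_image_le
    have h2 : (S₀.image fun q : k × k => (q.1 * q.2⁻¹, q.2⁻¹)).card ≤ S₀.card :=
      Finset.card_image_le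
    exact (Finset.card_union_le _ _).trans (by omega)
  have hSinv : ∀ y : GL (Fin 2) k, trDet y ∈ S → trDet y⁻¹ ∈ S := fun y hy => by
    rcases Finset.mem_union.mp hy with h | h
    · exact Finset.mem_union_right _ (Finset.mem_image.mpr ⟨_, h, (trDet_inv y).symm⟩)
    · obtain ⟨q, hq, hqy⟩ := Finset.mem_image.mp h
      refine Finset.mem_union_left _ ?_
      have hne : (trDet y).2 ≠ 0 := (Matrix.GeneralLinearGroup.det y).ne_zero
      rw [← hqy] at hne
      simp only [ne_eq, inv_eq_zero] at hne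
      rw [trDet_inv, ← hqy]
      show (q.1 * q.2⁻¹ * q.2⁻¹⁻¹, q.2⁻¹⁻¹) ∈ S₀
      rwa [inv_inv, mul_assoc, inv_mul_cancel₀ hne, mul_one]
  have hbad : 8 * (Finset.univ.filter fun x : r.range => trDet (x : GL (Fin 2) k) ∉ S).card ≤
      Fintype.card r.range := by
    set P : r.range → Prop := fun x => trDet (x : GL (Fin 2) k) ∉ S with hP
    set F : Gal(L/ℚ) → ℝ := fun x => if P (g x) then 1 else 0 with hF
    have hmean := mean_le L F (fun x => by simp only [hF]; split_ifs <;> norm_num)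
      (fun a x => by
        simp only [hF, hP, map_mul, map_inv, Subgroup.coe_mul, Subgroup.coe_inv, trDet_conj])
      (fun x => by
        have : P (g x⁻¹) ↔ P (g x) := by
          simp only [hP, map_inv, Subgroup.coe_inv, not_iff_not]
          exact ⟨fun h => by simpa using hSinv _ h, hSinv _⟩
        simp only [hF, this])
      (bd_goodInd N fun p => qCoeff f p ∉ Y) (N * ℓ).primeFactors (fun p hp => by
        have hpm : ¬ (p : ℕ) ∣ N * ℓ := fun h =>
          hp (Nat.mem_primeFactors.mpr ⟨p.2, h, mul_ne_zero (NeZero.ne N) hℓ.ne_zero⟩)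
        simp only [hF]
        split_ifs with h
        · rw [goodInd, if_pos]
          refine ⟨fun h' => hpm (h'.mul_right ℓ), fun hmem => h ?_⟩
          obtain ⟨a, ha, hta⟩ := hfrob p p.2 hpm _ (placeAt_liesOverPrime p) _
            (frobAt_isFrobeniusAt p)
          refine Finset.mem_union_left _ (Finset.mem_image.mpr ⟨(a, charB ε ((p : ℕ) : ZMod N)),
            Finset.mem_product.mpr ⟨Finset.mem_preimage.mpr (ha ▸ hmem),
              Finset.mem_image_of_mem _ (Finset.mem_univ _)⟩, ?_⟩)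
          show _ = trDet (rN _)
          rw [hrN, hta]
        · exact goodInd_nonneg _ _ _)
      hY
    obtain ⟨c, hc, h1, h2⟩ := card_filter_map_surjective g hg P
    have hsum : ∑ x, F x = (((Finset.univ.filter P).card * c : ℕ) : ℝ) := by
      rw [hF, Finset.sum_boole, Nat.cast_inj]
      convert h1
    rw [hsum, Nat.card_eq_fintype_card, h2, Nat.cast_mul, Nat.cast_mul,
      mul_div_mul_right _ _ (Nat.cast_ne_zero.mpr hc.ne'), ← mul_div_assoc,
      div_le_iff₀ (Nat.cast_pos.mpr Fintype.card_pos)] at hmean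
    have h8 : (8 : ℝ) * ((Finset.univ.filter P).card : ℝ) ≤ (Fintype.card r.range : ℝ) := by
      have := (Nat.cast_nonneg (Finset.univ.filter P).card : (0 : ℝ) ≤ _)
      linarith
    exact_mod_cast h8
  have hcard : Fintype.card r.range ≤ D := card_range_le r hss S hScard hbad
  obtain ⟨Lc, hLc⟩ := exists_charP_lift (ℓ := ℓ) (mk_algClosure_zmod ℓ) φ r.range.subtype
    fun h => absurd (Nat.le_of_dvd Fintype.card_pos h) (by omega)
  refine ⟨k, inferInstance, inferInstance, φ, Lc.comp r.rangeRestrict, ⟨L, hLfd, fun σ hσ => ?_⟩,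
      fun p hp hpm A hAp => ⟨?_, ?_⟩⟩
  · rw [MonoidHom.comp_apply, show r.rangeRestrict σ = 1 from Subtype.ext (hker σ (hL σ hσ)),
      map_one]
  · intro σ hσ
    rw [MonoidHom.comp_apply, show r.rangeRestrict σ = 1 from
      Subtype.ext (hker σ ((hτ p hp hpm A hAp).1 σ hσ)), map_one]
  intro σ hσ
  obtain ⟨a, ha, hta⟩ := hfrob p hp hpm A hAp σ hσ
  obtain ⟨u, w, hu, hw, ht, hd, ht', hd'⟩ := hLc (r.rangeRestrict σ)
  obtain ⟨c, hc⟩ := Nat.dvd_factorial Fintype.card_pos hcard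
  have hμmem : ∀ z : 𝔸, z ^ Fintype.card r.range = 1 → z ∈ μ := fun z hz => by
    rw [hμ, Multiset.mem_toFinset, Polynomial.mem_nthRoots (Nat.factorial_pos _), hc, pow_mul, hz,
      one_pow]
  exact ⟨a, ha, u, hμmem u hu, w, hμmem w hw, Prod.ext ht hd,
    ht'.symm.trans (congrArg Prod.fst hta), hd'.symm.trans (congrArg Prod.snd hta)⟩

/-- For large `ℓ ≡ 11 (mod 12)` the congruences are equalities: the lift is attached to `f` away
from `N ℓ`. -/
theorem exists_attached_mul (hA : WeightOneArith) (hM : ModLReps) (hE : IsEigen ε f) :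
    ∃ B : ℕ, ∀ ℓ : ℕ, ℓ.Prime → B < ℓ → ℓ % 12 = 11 → ∃ ρ, Attached ε f (N * ℓ) ρ := by
  obtain ⟨hint, -, -⟩ := hA N ε f hE
  obtain ⟨B, μ, hlift⟩ := exists_lifted hA hM hE
  set sums := (μ ×ˢ μ).image fun p : 𝔸 × 𝔸 => p.1 + p.2 with hsums
  set prods := (μ ×ˢ μ).image fun p : 𝔸 × 𝔸 => p.1 * p.2 with hprods
  have hmem : ∀ p : ℕ, p.Prime → ¬ p ∣ N → ∀ a : 𝔸, (a : ℂ) = qCoeff f p → a ∈ sums := by
    intro p hp hpN a ha
    obtain ⟨B₁, hB₁⟩ := exists_bound_separate (insert a sums)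
    obtain ⟨ℓ, hℓB, hℓ, h12⟩ := exists_prime_eleven (max (max B B₁) p + 1)
    obtain ⟨k, _, _, φ, ρ, -, hρ⟩ := hlift ℓ hℓ (by omega) h12
    have hpm : ¬ p ∣ N * ℓ := fun h => by
      rcases hp.dvd_mul.mp h with h | h
      · exact hpN h
      · have := (Nat.prime_dvd_prime_iff_eq hp hℓ).mp h; omega
    obtain ⟨a', ha', u, hu, w, hw, -, heq, -⟩ :=
      (hρ p hp hpm _ (placeAt_liesOverPrime ⟨p, hp⟩)).2 _ (frobAt_isFrobeniusAt ⟨p, hp⟩)
    obtain rfl : a' = a := Subtype.ext (ha'.trans ha.symm)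
    have hs : u + w ∈ sums := Finset.mem_image.mpr ⟨(u, w), Finset.mk_mem_product hu hw, rfl⟩
    rw [← hB₁ ℓ (by omega) k φ _ (Finset.mem_insert_of_mem hs) _ (Finset.mem_insert_self _ _) heq]
    exact hs
  obtain ⟨B₁, hB₁⟩ := exists_bound_separate (sums ∪ prods ∪ Finset.univ.image (charB ε))
  refine ⟨max B B₁, fun ℓ hℓ hB h12 => ?_⟩
  obtain ⟨k, _, _, φ, ρ, hfl, hρ⟩ := hlift ℓ hℓ (by omega) h12
  refine ⟨ρ, hfl, fun p hp hpm A hAp => ⟨(hρ p hp hpm A hAp).1, fun σ hσ => ?_⟩⟩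
  obtain ⟨a, ha, u, hu, w, hw, htd, h1, h2⟩ := (hρ p hp hpm A hAp).2 σ hσ
  have hBℓ : B₁ < ℓ := by omega
  have hpN : ¬ p ∣ N := fun h => hpm (h.mul_right ℓ)
  have e1 : u + w = a := hB₁ ℓ hBℓ k φ _
    (Finset.mem_union_left _ (Finset.mem_union_left _
      (Finset.mem_image.mpr ⟨(u, w), Finset.mk_mem_product hu hw, rfl⟩)))
    _ (Finset.mem_union_left _ (Finset.mem_union_left _ (hmem p hp hpN a ha))) h1
  have e2 : u * w = charB ε (p : ZMod N) := hB₁ ℓ hBℓ k φ _
    (Finset.mem_union_left _ (Finset.mem_union_right _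
      (Finset.mem_image.mpr ⟨(u, w), Finset.mk_mem_product hu hw, rfl⟩)))
    _ (Finset.mem_union_right _ (Finset.mem_image_of_mem _ (Finset.mem_univ _))) h2
  rw [htd, ← ha, ← e1, ← coe_charB, ← e2]
  rfl

/-- Comparing two auxiliary primes gives a representation attached to `f` away from `N`. -/
theorem exists_attached (hA : WeightOneArith) (hM : ModLReps) (hE : IsEigen ε f) :
    ∃ ρ, Attached ε f N ρ := by
  obtain ⟨B, hB⟩ := exists_attached_mul hA hM hE
  obtain ⟨ℓ₁, hℓ₁B, hℓ₁, h₁12⟩ := exists_prime_eleven (B + 1)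
  obtain ⟨ℓ₂, hℓ₂B, hℓ₂, h₂12⟩ := exists_prime_eleven (ℓ₁ + 1)
  obtain ⟨ρ, hfl, hρ⟩ := hB ℓ₁ hℓ₁ (by omega) h₁12
  obtain ⟨ρ', hfl', hρ'⟩ := hB ℓ₂ hℓ₂ (by omega) h₂12
  obtain ⟨L₁, hL₁, h₁⟩ := hfl
  obtain ⟨L₂, hL₂, h₂⟩ := hfl'
  obtain ⟨L, hLfd, hLgal, hL⟩ := exists_galois_level (ρ.prod ρ') ⟨L₁ ⊔ L₂, inferInstance,
    fun σ hσ => Prod.ext (h₁ σ fun x hx => hσ x ((le_sup_left : L₁ ≤ L₁ ⊔ L₂) hx))
      (h₂ σ fun x hx => hσ x ((le_sup_right : L₂ ≤ L₁ ⊔ L₂) hx))⟩
  obtain ⟨R, hR⟩ := exists_descend L ρ fun σ hσ => congrArg Prod.fst (hL σ hσ)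
  obtain ⟨R', hR'⟩ := exists_descend L ρ' fun σ hσ => congrArg Prod.snd (hL σ hσ)
  have hneq : ∀ x, trDet (R x) = trDet (R' x) := fun x => by
    refine not_not.mp (not_of_frobenius L (fun x => trDet (R x) ≠ trDet (R' x)) (fun h x => ?_)
      (fun x => ?_) (N * ℓ₁ * ℓ₂).primeFactors (fun p hp => ?_) x)
    · simp only [map_mul, map_inv, trDet_conj]
    · simp only [map_inv, ne_eq, trDet_inv_eq_iff]
    · have hpm : ¬ (p : ℕ) ∣ N * ℓ₁ * ℓ₂ := fun h => hp (Nat.mem_primeFactors.mpr ⟨p.2, h,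
        mul_ne_zero (mul_ne_zero (NeZero.ne N) hℓ₁.ne_zero) hℓ₂.ne_zero⟩)
      rw [not_not, hR, hR',
        (hρ p p.2 (fun h => hpm (h.mul_right ℓ₂)) _ (placeAt_liesOverPrime p)).2 _
          (frobAt_isFrobeniusAt p),
        (hρ' p p.2 (fun h => hpm (mul_right_comm N ℓ₂ ℓ₁ ▸ h.mul_right ℓ₁)) _
          (placeAt_liesOverPrime p)).2 _ (frobAt_isFrobeniusAt p)]
  have htd : ∀ σ, trDet (ρ σ) = trDet (ρ' σ) := fun σ => by rw [← hR, ← hR', hneq]
  have hone : ∀ σ, ρ' σ = 1 → ρ σ = 1 := fun σ h => by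
    have ht := htd σ
    rw [h, trDet_one] at ht
    refine Units.ext (eq_one_of_trace_det (n := Fintype.card Gal(L/ℚ)) Fintype.card_ne_zero ?_
      (congrArg Prod.fst ht) (congrArg Prod.snd ht))
    rw [← Units.val_pow_eq_pow_val, ← hR, ← map_pow, pow_card_eq_one, map_one, Units.val_one]
  refine ⟨ρ, ⟨L, hLfd, fun σ hσ => congrArg Prod.fst (hL σ hσ)⟩, fun p hp hpN A hAp => ?_⟩
  by_cases hp1 : p = ℓ₁
  · have hpm : ¬ p ∣ N * ℓ₂ := fun h => by
      rcases hp.dvd_mul.mp h with h | h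
      · exact hpN h
      · have := (Nat.prime_dvd_prime_iff_eq hp hℓ₂).mp h; omega
    obtain ⟨hi, hf⟩ := hρ' p hp hpm A hAp
    exact ⟨fun σ hσ => hone σ (hi σ hσ), fun σ hσ => (htd σ).trans (hf σ hσ)⟩
  · refine hρ p hp (fun h => ?_) A hAp
    rcases hp.dvd_mul.mp h with h | h
    · exact hpN h
    · exact hp1 ((Nat.prime_dvd_prime_iff_eq hp hℓ₁).mp h)

/-- An attached representation has no stable line: such a line would make the mean of
`|trace| ^ 2` at least `2`, against Rankin's bound. -/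
theorem irreducible_of_attached (hE : IsEigen ε f) {ρ : AbsGal →* GL (Fin 2) ℂ}
    (hρ : Attached ε f N ρ) (v : Fin 2 → ℂ) (hv : v ≠ 0) :
    ∃ σ, ∀ c : ℂ, (ρ σ : Matrix (Fin 2) (Fin 2) ℂ) *ᵥ v ≠ c • v := by
  by_contra hcon
  push Not at hcon
  obtain ⟨L, hLfd, hLgal, hL⟩ := exists_galois_level ρ hρ.1
  obtain ⟨R, hR⟩ := exists_descend L ρ hL
  set n := Fintype.card Gal(L/ℚ) with hn
  have hline : ∀ x, ∃ c : ℂ, (R x : Matrix (Fin 2) (Fin 2) ℂ) *ᵥ v = c • v := fun x => by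
    obtain ⟨σ, rfl⟩ := AlgEquiv.restrictNormalHom_surjective (K₁ := L) Qbar x
    rw [hR]
    exact hcon σ
  choose c hc using hline
  have huniq : ∀ a b : ℂ, a • v = b • v → a = b := fun a b e => smul_left_injective ℂ hv e
  let χ : Gal(L/ℚ) →* ℂ :=
    { toFun := c
      map_one' := huniq _ _ <| by rw [← hc, map_one, Units.val_one, one_mulVec, one_smul]
      map_mul' := fun x y => huniq _ _ <| by
        rw [← hc, map_mul, Units.val_mul, ← Matrix.mulVec_mulVec, hc, Matrix.mulVec_smul, hc,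
          smul_smul, mul_comm] }
  let δ : Gal(L/ℚ) →* ℂ := (Units.coeHom ℂ).comp (Matrix.GeneralLinearGroup.det.comp R)
  have hχn : ∀ x, χ x ^ n = 1 := fun x => by rw [← map_pow, pow_card_eq_one, map_one]
  have hδn : ∀ x, δ x ^ n = 1 := fun x => by rw [← map_pow, pow_card_eq_one, map_one]
  have hnorm : ∀ z : ℂ, z ^ n = 1 → ‖z‖ = 1 := fun z hz =>
    Complex.norm_eq_one_of_pow_eq_one hz Fintype.card_ne_zero
  have hne : ∀ x, χ x ≠ 0 := fun x h => by
    have := hnorm _ (hχn x); rw [h, norm_zero] at this; exact one_ne_zero this.symm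
  have htr : ∀ x, (R x : Matrix (Fin 2) (Fin 2) ℂ).trace = χ x + δ x * (χ x)⁻¹ := fun x => by
    have hdet : ((R x : Matrix (Fin 2) (Fin 2) ℂ) - χ x • 1).det = 0 := by
      refine Matrix.exists_mulVec_eq_zero_iff.mp ⟨v, hv, ?_⟩
      rw [sub_mulVec, hc, smul_mulVec, one_mulVec]
      exact sub_self _
    simp [Matrix.det_fin_two] at hdet
    have hd : δ x = (R x : Matrix (Fin 2) (Fin 2) ℂ).det := rfl
    rw [hd, Matrix.det_fin_two, Matrix.trace_fin_two]
    have := hne x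
    field_simp
    linear_combination -hdet
  set F : Gal(L/ℚ) → ℝ := fun x => ‖(R x : Matrix (Fin 2) (Fin 2) ℂ).trace‖ ^ 2 with hF
  have hFle : ∀ x, F x ≤ 4 := fun x => by
    have h : ‖(R x : Matrix (Fin 2) (Fin 2) ℂ).trace‖ ≤ 2 := by
      rw [htr]
      refine (norm_add_le _ _).trans ?_
      rw [norm_mul, norm_inv, hnorm _ (hχn x), hnorm _ (hδn x)]
      norm_num
    simp only [hF]
    nlinarith [norm_nonneg (R x : Matrix (Fin 2) (Fin 2) ℂ).trace]
  -- the upper bound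
  obtain ⟨C, hC⟩ := rankin_bound (MF.isCuspFn_coe f) (N := N) (e := fun p => ε (p : ZMod N)) hE.one
    (fun p hp hpN => by
      obtain ⟨u, hu⟩ := (ZMod.isUnit_iff_coprime p N).mpr (hp.coprime_iff_not_dvd.mpr hpN)
      rw [← hu]
      exact DirichletCharacter.unit_norm_eq_one ε u)
    hE.hecke
  set w : Nat.Primes → ℝ := fun p =>
    if (p : ℕ) ∣ N then 0 else F (AlgEquiv.restrictNormalHom L (frobAt p)) with hw
  have hw0 : ∀ p, 0 ≤ w p := fun p => by
    simp only [hw]; split_ifs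
    · exact le_rfl
    · exact sq_nonneg _
  have hmean := mean_le L F (fun x => sq_nonneg _)
    (fun a x => by simp only [hF, map_mul, map_inv, Units.val_mul, Matrix.trace_units_conj'])
    (fun x => by
      simp only [hF, htr, map_inv]
      have e : ∀ z : ℂ, z ^ n = 1 → z⁻¹ = (starRingEnd ℂ) z := fun z hz =>
        Complex.inv_eq_conj (hnorm z hz)
      rw [e _ (hχn x), e _ (hδn x), ← map_inv₀, ← map_mul, ← map_add, Complex.norm_conj,
        ← e _ (hχn x)])
    (v := w) ⟨4, fun p => by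
      rw [abs_of_nonneg (hw0 p)]
      simp only [hw]; split_ifs
      · norm_num
      · exact hFle _⟩
    N.primeFactors (fun p hp => by
      have hpN : ¬ (p : ℕ) ∣ N := fun h => hp (Nat.mem_primeFactors.mpr ⟨p.2, h, NeZero.ne N⟩)
      simp only [hw, if_neg hpN, le_refl])
    (c := 1) (C := C) (by
      filter_upwards [Ioc_mem_nhdsGT (show (1 : ℝ) < 2 by norm_num)] with s hs
      rw [one_mul]
      refine Real.tsum_le_of_sum_le
        (fun p => mul_nonneg (hw0 p) (Real.rpow_nonneg (Nat.cast_nonneg _) _)) fun T => ?_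
      refine le_trans (le_of_eq ?_) (hC s hs.1 hs.2 ((T.filter fun p : Nat.Primes =>
        ¬ (p : ℕ) ∣ N).map ⟨fun p : Nat.Primes => (p : ℕ), Nat.Primes.coe_nat_injective⟩)
        fun q hq => ?_)
      · rw [Finset.sum_map, Finset.sum_filter]
        refine Finset.sum_congr rfl fun p _ => ?_
        simp only [hw, Function.Embedding.coeFn_mk]
        split_ifs with h
        · rw [zero_mul]
        · simp only [hF, hR]
          congr 3
          exact congrArg Prod.fst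
            ((hρ.2 p p.2 h _ (placeAt_liesOverPrime p)).2 _ (frobAt_isFrobeniusAt p))
      · obtain ⟨p, hp, rfl⟩ := Finset.mem_map.mp hq
        exact ⟨p.2, (Finset.mem_filter.mp hp).2⟩)
  -- the mean is at least two
  have hsum : (2 : ℝ) * n ≤ ∑ x, F x := by
    let η : Gal(L/ℚ) →* ℂ := (χ * χ) * (Units.coeHom ℂ).comp
      (Matrix.GeneralLinearGroup.det.comp R)⁻¹
    have hη : ∀ x, η x = χ x * χ x * (δ x)⁻¹ := fun x => by
      show χ x * χ x * _ = _
      congr 1
      exact Units.val_inv_eq_inv_val _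
    have hFx : ∀ x, F x = 2 + 2 * (η x).re := fun x => by
      have a1 := hnorm _ (hχn x)
      have a2 := hnorm _ (hδn x)
      simp only [hF, htr]
      rw [Complex.sq_norm, Complex.normSq_add, hη, map_mul Complex.normSq, map_inv₀,
        Complex.normSq_eq_norm_sq, Complex.normSq_eq_norm_sq, a1, a2]
      rw [map_mul (starRingEnd ℂ), map_inv₀, ← Complex.inv_eq_conj a1, inv_inv,
        ← Complex.inv_eq_conj a2]
      ring_nf
    simp only [hFx, Finset.sum_add_distrib, Finset.sum_const, Finset.card_univ, nsmul_eq_mul,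
      ← Finset.mul_sum, ← Complex.re_sum, sum_hom_units]
    have : (0 : ℝ) ≤ ((if η = 1 then (Fintype.card Gal(L/ℚ) : ℂ) else 0)).re := by
      split_ifs <;> simp
    rw [hn]
    push_cast
    linarith
  rw [Nat.card_eq_fintype_card, ← hn] at hmean
  have hn0 : (0 : ℝ) < n := Nat.cast_pos.mpr Fintype.card_pos
  have : (2 : ℝ) ≤ (∑ x, F x) / n := (le_div_iff₀ hn0).mpr hsum
  linarith

/-- The theorem of Deligne and Serre from the two inputs. -/
theorem deligneSerre_of (hA : WeightOneArith) (hM : ModLReps) (hE : IsEigen ε f) :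
    ∃ ρ : AbsGal →* GL (Fin 2) ℂ, GaloisFactorsThroughFiniteLevel ρ ∧
      (Deformation.matrixRepresentation ρ).IsIrreducible ∧
      ∀ p : ℕ, p.Prime → ¬ p ∣ N →
        ∀ A : ValuationSubring Qbar, A.LiesOverPrime p →
          (∀ σ ∈ A.inertiaSubgroupIn ℚ, ρ σ = 1) ∧
          ∀ σ : AbsGal, A.IsFrobeniusAt σ p →
            ((ρ σ : GL (Fin 2) ℂ) : Matrix (Fin 2) (Fin 2) ℂ).trace = qCoeff f p ∧
            ((ρ σ : GL (Fin 2) ℂ) : Matrix (Fin 2) (Fin 2) ℂ).det = ε (p : ZMod N) := by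
  obtain ⟨ρ, hρ⟩ := exists_attached hA hM hE
  refine ⟨ρ, hρ.1, ?_, fun p hp hpN A hA' => ⟨(hρ.2 p hp hpN A hA').1, fun σ hσ =>
    Prod.ext_iff.mp ((hρ.2 p hp hpN A hA').2 σ hσ)⟩⟩
  have hirr := irreducible_of_attached hE hρ
  have hnt : Nontrivial (Subrepresentation (Deformation.matrixRepresentation ρ)) :=
    ⟨⊥, ⊤, fun h => by
      have := congrArg Subrepresentation.toSubmodule h
      exact bot_ne_top (α := Submodule ℂ (Fin 2 → ℂ)) this⟩
  refine { eq_bot_or_eq_top := fun W => ?_ }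
  by_cases h0 : W.toSubmodule = ⊥
  · exact Or.inl (Subrepresentation.toSubmodule_injective h0)
  refine Or.inr (Subrepresentation.toSubmodule_injective ?_)
  obtain ⟨v, hvW, hv⟩ := Submodule.exists_mem_ne_zero_of_ne_bot h0
  obtain ⟨σ, hσ⟩ := hirr v hv
  have hw := W.apply_mem_toSubmodule σ hvW
  rw [Deformation.matrixRepresentation_apply, Matrix.mulVecLin_apply] at hw
  refine eq_top_iff.mpr ?_
  rw [← Gal.span_eq_top_of_pair hv hσ, Submodule.span_le]
  rintro _ ⟨i, rfl⟩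
  fin_cases i
  · exact hvW
  · exact hw

end

end Fermat.Agent.WeightOneGalois
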