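import Fermat.Prelude.Thm_ModularForm_isBoundedAtImInfty_heckeT
import Fermat.Prelude.Thm_ModularForm_isBoundedAtImInfty_heckeU
import Fermat.Prelude.Thm_ModularForm_mdifferentiable_heckeT
import Fermat.Prelude.Thm_ModularForm_mdifferentiable_heckeU
import Fermat.Prelude.Thm_ModularForm_periodic_heckeT_comp_ofComplex
import Fermat.Prelude.Thm_ModularForm_periodic_heckeU_comp_ofComplex
import Fermat.Agent.WeightOneGalois.Period.Ops

/-!
# The character of a weight-one eigenform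

The hypothesis on the coefficients says that `(f ∣ σ_p - ε(p) f)(pτ)` is invariant under a
congruence group. A weight-one cusp function with this property has all periods `p ^ (-j)`, hence
vanishes.
-/

noncomputable section

open UpperHalfPlane CongruenceSubgroup ModularFormClass Filter
open scoped MatrixGroups ModularForm Manifold

namespace Fermat.Agent.WeightOneGalois

/-- Translation by a real number. -/
def transGL (x : ℝ) : GL (Fin 2) ℝ := Matrix.GeneralLinearGroup.upperRightHom x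

theorem val_transGL (x : ℝ) : (transGL x : Matrix (Fin 2) (Fin 2) ℝ) = !![1, x; 0, 1] := rfl

theorem slash_transGL_apply (h : ℍ → ℂ) (x : ℝ) (τ : ℍ) :
    (h ∣[(1 : ℤ)] transGL x) τ = h (x +ᵥ τ) := by
  have hdet : ((transGL x).det : ℝ) = 1 := by
    rw [Matrix.GeneralLinearGroup.val_det_apply, val_transGL, Matrix.det_fin_two_of]; ring
  have hsmul : transGL x • τ = x +ᵥ τ := by
    apply UpperHalfPlane.ext
    rw [coe_smul_of_det_pos (hdet ▸ one_pos), coe_vadd]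
    simp [num, denom, val_transGL]
    ring
  have hden : denom (transGL x) (τ : ℂ) = 1 := by simp [denom, val_transGL]
  rw [ModularForm.slash_apply, UpperHalfPlane.σ, if_pos (hdet ▸ one_pos), hsmul, hden, hdet]
  simp

theorem slash_sub (g : GL (Fin 2) ℝ) (F G : ℍ → ℂ) :
    (F - G) ∣[(1 : ℤ)] g = F ∣[(1 : ℤ)] g - G ∣[(1 : ℤ)] g := by
  rw [sub_eq_add_neg, SlashAction.add_slash, SlashAction.neg_slash, ← sub_eq_add_neg]

theorem slash_sub_SL (g : SL(2, ℤ)) (F G : ℍ → ℂ) :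
    (F - G) ∣[(1 : ℤ)] g = F ∣[(1 : ℤ)] g - G ∣[(1 : ℤ)] g := slash_sub _ _ _

section Vanish

variable (L p : ℕ)

local notation "αp" => ModularForm.heckeDiagMatrix p

/-- The group generated by `Γ₁(L)` and its conjugate by `diag(p, 1)`. -/
def conjGroup : Subgroup (GL (Fin 2) ℝ) :=
  Subgroup.closure ({x | ∃ γ ∈ Gamma1 L, x = (γ : GL (Fin 2) ℝ)} ∪
    {x | ∃ γ ∈ Gamma1 L, x = αp * (γ : GL (Fin 2) ℝ) * αp⁻¹})

variable {L p}

theorem coe_mem_conjGroup {γ : SL(2, ℤ)} (h : γ ∈ Gamma1 L) :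
    (γ : GL (Fin 2) ℝ) ∈ conjGroup L p :=
  Subgroup.subset_closure (Or.inl ⟨γ, h, rfl⟩)

theorem conj_mem_conjGroup {γ : SL(2, ℤ)} (h : γ ∈ Gamma1 L) :
    αp * (γ : GL (Fin 2) ℝ) * αp⁻¹ ∈ conjGroup L p :=
  Subgroup.subset_closure (Or.inr ⟨γ, h, rfl⟩)

theorem mem_Gamma1_of_dvd {γ : SL(2, ℤ)} (hc : (L : ℤ) ∣ γ 1 0) (hd : (L : ℤ) ∣ γ 1 1 - 1) :
    γ ∈ Gamma1 L := by
  have h := γ.2
  rw [Matrix.det_fin_two] at h
  have hc' : (γ 1 0 : ZMod L) = 0 := (ZMod.intCast_zmod_eq_zero_iff_dvd _ _).mpr hc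
  have hd' : (γ 1 1 : ZMod L) = 1 :=
    sub_eq_zero.mp (by exact_mod_cast (ZMod.intCast_zmod_eq_zero_iff_dvd (γ 1 1 - 1) L).mpr hd)
  have h' := congrArg (Int.cast : ℤ → ZMod L) h
  push_cast at h'
  rw [hc', hd', mul_one, mul_zero, sub_zero] at h'
  exact (Gamma1_mem L γ).mpr ⟨h', hd', hc'⟩

variable (hp : p.Prime) (hpL : ¬ p ∣ L)

include hp hpL in
theorem exists_bezout : ∃ u w : ℤ, (p : ℤ) * u + (L : ℤ) * w = 1 := by
  obtain ⟨u, w, h⟩ := Nat.isCoprime_iff_coprime.mpr ((hp.coprime_iff_not_dvd).mpr hpL)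
  exact ⟨u, w, by linarith⟩

include hp hpL in
/-- Translation by `1 / p` is in the group. -/
theorem transGL_inv_mem : transGL (1 / p : ℝ) ∈ conjGroup L p := by
  obtain ⟨u, w, h⟩ := exists_bezout hp hpL
  let g₀ : SL(2, ℤ) := ⟨!![1 - u * L, u ^ 2; -(L : ℤ) ^ 2, 1 + u * L], by
    rw [Matrix.det_fin_two_of]; ring⟩
  let γ : SL(2, ℤ) := ⟨!![(p : ℤ) * u, -w; (L : ℤ), 1], by
    rw [Matrix.det_fin_two_of]; linarith⟩
  let γ' : SL(2, ℤ) := ⟨!![1, w; -(L : ℤ), (p : ℤ) * u], by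
    rw [Matrix.det_fin_two_of]; linarith⟩
  have hg₀ : g₀ ∈ Gamma1 L := mem_Gamma1_of_dvd ⟨-L, by simp [g₀]; ring⟩ ⟨u, by simp [g₀]; ring⟩
  have hγ : γ ∈ Gamma1 L := mem_Gamma1_of_dvd ⟨1, by simp [γ]⟩ ⟨0, by simp [γ]⟩
  have hγ' : γ' ∈ Gamma1 L := mem_Gamma1_of_dvd ⟨-1, by simp [γ']⟩ ⟨-w, by simp [γ']; linarith⟩
  have hp0 : (p : ℝ) ≠ 0 := Nat.cast_ne_zero.mpr hp.ne_zero
  have hR : (p : ℝ) * u + (L : ℝ) * w = 1 := by exact_mod_cast h
  have key : (γ : GL (Fin 2) ℝ) * transGL (1 / p : ℝ) * (γ' : GL (Fin 2) ℝ) =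
      αp * (g₀ : GL (Fin 2) ℝ) * αp⁻¹ := by
    rw [eq_mul_inv_iff_mul_eq]
    refine Units.ext ?_
    simp only [Units.val_mul, ModularForm.val_heckeDiagMatrix hp.ne_zero, val_transGL]
    ext i j
    fin_cases i <;> fin_cases j <;>
      simp [g₀, γ, γ', Matrix.mul_apply, Fin.sum_univ_two] <;> (try field_simp) <;>
      first | ring1 | linear_combination hR
  have hmem : (γ : GL (Fin 2) ℝ) * transGL (1 / p : ℝ) * (γ' : GL (Fin 2) ℝ) ∈ conjGroup L p :=
    key ▸ conj_mem_conjGroup hg₀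
  exact (Subgroup.mul_mem_cancel_left _ (coe_mem_conjGroup hγ)).mp
    ((Subgroup.mul_mem_cancel_right _ (coe_mem_conjGroup hγ')).mp hmem)

include hp hpL in
theorem transGL_div_mem (x : ℤ) : transGL (x / p : ℝ) ∈ conjGroup L p := by
  have e : transGL (x / p : ℝ) = transGL (1 / p : ℝ) ^ x := by
    rw [show (x / p : ℝ) = x • (1 / p : ℝ) by rw [zsmul_eq_mul]; ring]
    exact AddChar.map_zsmul_eq_zpow _ x _
  rw [e]
  exact Subgroup.zpow_mem _ (transGL_inv_mem hp hpL) x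

include hp hpL in
/-- `diag(p,1)⁻¹ Γ₁(L) diag(p,1)` is in the group. -/
theorem inv_conj_mem {γ : SL(2, ℤ)} (hγ : γ ∈ Gamma1 L) :
    αp⁻¹ * (γ : GL (Fin 2) ℝ) * αp ∈ conjGroup L p := by
  have : Fact p.Prime := ⟨hp⟩
  have hp0 : (p : ℝ) ≠ 0 := Nat.cast_ne_zero.mpr hp.ne_zero
  have hmain : ∀ g : SL(2, ℤ), g ∈ Gamma1 L → ¬ (p : ℤ) ∣ g 1 1 →
      αp⁻¹ * (g : GL (Fin 2) ℝ) * αp ∈ conjGroup L p := by
    intro g hg hd
    obtain ⟨x, e, he⟩ : ∃ x e : ℤ, g 0 1 - x * g 1 1 = (p : ℤ) * e := by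
      refine ⟨((((g 0 1 : ZMod p)) * (g 1 1 : ZMod p)⁻¹).val : ℤ), ?_⟩
      refine (ZMod.intCast_zmod_eq_zero_iff_dvd _ p).mp ?_
      have hd' : (g 1 1 : ZMod p) ≠ 0 := fun h => hd ((ZMod.intCast_zmod_eq_zero_iff_dvd _ _).mp h)
      push_cast
      rw [ZMod.natCast_zmod_val, mul_assoc, inv_mul_cancel₀ hd', mul_one, sub_self]
    have hdet := g.2
    rw [Matrix.det_fin_two] at hdet
    let g' : SL(2, ℤ) := ⟨!![g 0 0 - x * g 1 0, e; (p : ℤ) * g 1 0, g 1 1], by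
      rw [Matrix.det_fin_two_of]; linear_combination hdet + (g 1 0) * he⟩
    obtain ⟨h1, h2, h3⟩ := (Gamma1_mem L g).mp hg
    have hg' : g' ∈ Gamma1 L := by
      refine mem_Gamma1_of_dvd ?_ ?_
      · show (L : ℤ) ∣ (p : ℤ) * g 1 0
        exact ((ZMod.intCast_zmod_eq_zero_iff_dvd _ _).mp h3).mul_left _
      · show (L : ℤ) ∣ g 1 1 - 1
        exact (ZMod.intCast_zmod_eq_zero_iff_dvd _ _).mp (by push_cast; rw [h2, sub_self])
    have heR : (g 0 1 : ℝ) - x * g 1 1 = p * e := by exact_mod_cast he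
    have key : αp⁻¹ * (g : GL (Fin 2) ℝ) * αp = transGL (x / p : ℝ) * (g' : GL (Fin 2) ℝ) := by
      rw [mul_assoc, inv_mul_eq_iff_eq_mul]
      refine Units.ext ?_
      simp only [Units.val_mul, ModularForm.val_heckeDiagMatrix hp.ne_zero, val_transGL]
      ext i j
      fin_cases i <;> fin_cases j <;>
        simp [g', Matrix.mul_apply, Matrix.vecMul, dotProduct, Fin.sum_univ_two] <;>
        (try field_simp) <;> first | ring1 | linear_combination heR
    rw [key]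
    exact mul_mem (transGL_div_mem hp hpL x) (coe_mem_conjGroup hg')
  by_cases hd : (p : ℤ) ∣ γ 1 1
  · let l : SL(2, ℤ) := ⟨!![1, 0; (L : ℤ), 1], by rw [Matrix.det_fin_two_of]; ring⟩
    let l' : SL(2, ℤ) := ⟨!![1, 0; (p : ℤ) * L, 1], by rw [Matrix.det_fin_two_of]; ring⟩
    have hl : l ∈ Gamma1 L := mem_Gamma1_of_dvd ⟨1, by simp [l]⟩ ⟨0, by simp [l]⟩
    have hl' : l' ∈ Gamma1 L := mem_Gamma1_of_dvd ⟨p, by simp [l', mul_comm]⟩ ⟨0, by simp [l']⟩
    have hb : ¬ (p : ℤ) ∣ γ 0 1 := fun hb => by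
      have hdet := γ.2
      rw [Matrix.det_fin_two] at hdet
      have h1 : (p : ℤ) ∣ 1 := hdet ▸ dvd_sub (hd.mul_left _) (hb.mul_right _)
      exact hp.one_lt.ne' (by exact_mod_cast (Int.eq_one_of_dvd_one (by positivity) h1))
    have hnd : ¬ (p : ℤ) ∣ (l⁻¹ * γ) 1 1 := by
      have e : (l⁻¹ * γ) 1 1 = γ 1 1 - (L : ℤ) * γ 0 1 := by
        simp [l, Matrix.SpecialLinearGroup.coe_inv, Matrix.adjugate_fin_two, Matrix.mul_apply,
          Fin.sum_univ_two]
        ring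
      rw [e]
      intro h
      have h2 : (p : ℤ) ∣ (L : ℤ) * γ 0 1 := by simpa using dvd_sub hd h
      rcases (Nat.prime_iff_prime_int.mp hp).dvd_or_dvd h2 with h3 | h3
      · exact hpL (Int.natCast_dvd_natCast.mp h3)
      · exact hb h3
    have key : αp⁻¹ * (l : GL (Fin 2) ℝ) * αp = (l' : GL (Fin 2) ℝ) := by
      rw [mul_assoc, inv_mul_eq_iff_eq_mul]
      refine Units.ext ?_
      simp only [Units.val_mul, ModularForm.val_heckeDiagMatrix hp.ne_zero]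
      ext i j
      fin_cases i <;> fin_cases j
      all_goals simp [l, l', Matrix.mul_apply, Fin.sum_univ_two]
      all_goals ring
    have e : αp⁻¹ * (γ : GL (Fin 2) ℝ) * αp =
        (αp⁻¹ * (l : GL (Fin 2) ℝ) * αp) * (αp⁻¹ * ((l⁻¹ * γ : SL(2, ℤ)) : GL (Fin 2) ℝ) * αp) := by
      rw [map_mul, map_mul, map_inv, map_inv]
      group
    rw [e, key]
    exact mul_mem (coe_mem_conjGroup hl') (hmain _ (mul_mem (inv_mem hl) hγ) hnd)
  · exact hmain γ hγ hd

include hp hpL in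
/-- `conjGroup` is stable under conjugation by `diag(p,1)⁻¹`. -/
theorem inv_conj_conjGroup {g : GL (Fin 2) ℝ} (hg : g ∈ conjGroup L p) :
    αp⁻¹ * g * αp ∈ conjGroup L p := by
  induction hg using Subgroup.closure_induction with
  | mem x hx =>
    rcases hx with ⟨γ, hγ, rfl⟩ | ⟨γ, hγ, rfl⟩
    · exact inv_conj_mem hp hpL hγ
    · rw [show αp⁻¹ * (αp * (γ : GL (Fin 2) ℝ) * αp⁻¹) * αp = (γ : GL (Fin 2) ℝ) by group]
      exact coe_mem_conjGroup hγ
  | one => simp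
  | mul x y _ _ hx hy =>
    rw [show αp⁻¹ * (x * y) * αp = (αp⁻¹ * x * αp) * (αp⁻¹ * y * αp) by group]
    exact mul_mem hx hy
  | inv x _ hx =>
    rw [show αp⁻¹ * x⁻¹ * αp = (αp⁻¹ * x * αp)⁻¹ by group]
    exact inv_mem hx

include hp hpL in
theorem transGL_pow_inv_mem (j : ℕ) : transGL (1 / (p : ℝ) ^ (j + 1)) ∈ conjGroup L p := by
  induction j with
  | zero => simpa using transGL_inv_mem hp hpL
  | succ j ih =>
    have hp0 : (p : ℝ) ≠ 0 := Nat.cast_ne_zero.mpr hp.ne_zero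
    have e : αp⁻¹ * transGL (1 / (p : ℝ) ^ (j + 1)) * αp = transGL (1 / (p : ℝ) ^ (j + 1 + 1)) := by
      rw [mul_assoc, inv_mul_eq_iff_eq_mul]
      refine Units.ext ?_
      simp only [Units.val_mul, ModularForm.val_heckeDiagMatrix hp.ne_zero, val_transGL]
      ext i k
      fin_cases i <;> fin_cases k
      all_goals simp [Matrix.mul_apply, Fin.sum_univ_two]
      all_goals field_simp
      all_goals ring
    rw [← e]
    exact inv_conj_conjGroup hp hpL ih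

include hp hpL in
/-- A cusp function invariant, with its dilation by `p`, under `Γ₁(L)` vanishes. -/
theorem eq_zero_of_dilation_invariant {h : ℍ → ℂ} (hq : MF.IsQFn h) (hz : IsZeroAtImInfty h)
    (h1 : ∀ γ ∈ Gamma1 L, h ∣[(1 : ℤ)] γ = h)
    (h2 : ∀ γ ∈ Gamma1 L, (h ∣[(1 : ℤ)] αp) ∣[(1 : ℤ)] γ = h ∣[(1 : ℤ)] αp) : h = 0 := by
  have hfix : ∀ g ∈ conjGroup L p, h ∣[(1 : ℤ)] g = h := by
    intro g hg
    induction hg using Subgroup.closure_induction with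
    | mem x hx =>
      rcases hx with ⟨γ, hγ, rfl⟩ | ⟨γ, hγ, rfl⟩
      · rw [← ModularForm.SL_slash]; exact h1 γ hγ
      · rw [SlashAction.slash_mul, SlashAction.slash_mul, ← ModularForm.SL_slash, h2 γ hγ,
          ← SlashAction.slash_mul, mul_inv_cancel, SlashAction.slash_one]
    | one => exact SlashAction.slash_one _ _
    | mul x y _ _ hx hy => rw [SlashAction.slash_mul, hx, hy]
    | inv x _ hx =>
      conv_lhs => rw [← hx]
      rw [← SlashAction.slash_mul, mul_inv_cancel, SlashAction.slash_one]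
  refine eq_of_qCoeff hq (MF.IsQFn.const 0) fun n => ?_
  show qCoeff h n = qCoeff (0 : ℍ → ℂ) n
  rw [qCoeff, qCoeff, qExpansion_zero, map_zero]
  rcases Nat.eq_zero_or_pos n with rfl | hn
  · exact hq.coeff_zero_of_isZeroAtImInfty hz
  have hpp : (0 : ℝ) < (p : ℝ) ^ (n + 1) := pow_pos (Nat.cast_pos.mpr hp.pos) _
  set x : ℝ := 1 / (p : ℝ) ^ (n + 1) with hx
  have hper : ∀ τ : ℍ, h (x +ᵥ τ) = h τ := fun τ => by
    rw [← slash_transGL_apply h x τ, hfix _ (transGL_pow_inv_mem hp hpL n)]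
  set z : ℂ := Function.Periodic.qParam 1 (x : ℂ)
  have hsum : ∀ τ : ℍ, HasSum (fun m : ℕ => ((qExpansion 1 h).coeff m * z ^ m) •
      Function.Periodic.qParam 1 (τ : ℂ) ^ m) (h τ) := fun τ => by
    rw [← hper τ]
    refine (hasSum_qExpansion one_pos hq.periodic hq.mdiff hq.bdd (x +ᵥ τ)).congr_fun fun m => ?_
    simp only [z, smul_eq_mul, coe_vadd, Function.Periodic.qParam]
    rw [mul_assoc, ← mul_pow, ← Complex.exp_add]
    congr 3
    ring
  have hc : (qExpansion 1 h).coeff n * z ^ n = (qExpansion 1 h).coeff n := by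
    have := congrArg (PowerSeries.coeff n) (Eis.qExpansion_eq_of_hasSum one_pos
      (PowerSeries.mk fun m => (qExpansion 1 h).coeff m * z ^ m) (f := h) fun τ => by
        simpa only [PowerSeries.coeff_mk, smul_eq_mul] using hsum τ)
    rw [PowerSeries.coeff_mk] at this
    exact this.symm
  have hz1 : z ^ n ≠ 1 := by
    simp only [z, Function.Periodic.qParam, ← Complex.exp_nat_mul, ne_eq, Complex.exp_eq_one_iff]
    rintro ⟨m, hm⟩
    have hI : (2 * Real.pi * Complex.I : ℂ) ≠ 0 := by simp [Real.pi_ne_zero]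
    have hm' : ((n : ℝ) * x : ℂ) = (m : ℂ) := by
      refine mul_right_cancel₀ hI ?_
      push_cast at hm ⊢
      linear_combination hm
    have hm'' : (n : ℝ) * x = m := by exact_mod_cast hm'
    have hlt : (n : ℝ) * x < 1 := by
      rw [hx, mul_one_div, div_lt_one hpp]
      exact_mod_cast (Nat.lt_pow_self hp.one_lt).trans (Nat.pow_lt_pow_succ hp.one_lt)
    have hgt : 0 < (n : ℝ) * x := by rw [hx]; positivity
    rw [hm''] at hlt hgt
    have a : (m : ℤ) < 1 := by exact_mod_cast hlt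
    have b : (0 : ℤ) < m := by exact_mod_cast hgt
    omega
  by_contra hne
  exact hz1 (mul_left_cancel₀ hne (by rw [mul_one]; exact hc))

end Vanish

/-! ### The character -/

variable {N : ℕ} [NeZero N] {ε : DirichletCharacter ℂ N} {f : CuspForm (Gamma1 N) 1}

omit [NeZero N] in
theorem mem_Gamma1_of_sq {γ : SL(2, ℤ)} (h : γ ∈ Gamma1 (N ^ 2)) : γ ∈ Gamma1 N := by
  obtain ⟨h1, h2, h3⟩ := (Gamma1_mem _ γ).mp h
  have hd : N ∣ N ^ 2 := dvd_pow_self N two_ne_zero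
  rw [Gamma1_mem]
  refine ⟨?_, ?_, ?_⟩
  · simpa using congrArg (ZMod.castHom hd (ZMod N)) h1
  · simpa using congrArg (ZMod.castHom hd (ZMod N)) h2
  · simpa using congrArg (ZMod.castHom hd (ZMod N)) h3

omit [NeZero N] in
theorem conj_mem_Gamma1 {δ γ : SL(2, ℤ)} (hδ : δ ∈ Gamma0 N) (hγ : γ ∈ Gamma1 N) :
    δ * γ * δ⁻¹ ∈ Gamma1 N := by
  obtain ⟨h1, h2, h3⟩ := (Gamma1_mem N γ).mp hγ
  have hc : (δ 1 0 : ZMod N) = 0 := Gamma0_mem.mp hδ
  have hdet := δ.2
  rw [Matrix.det_fin_two] at hdet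
  have hd := congrArg (Int.cast : ℤ → ZMod N) hdet
  push_cast at hd
  rw [hc, mul_zero, sub_zero] at hd
  refine mem_Gamma1_of_dvd ?_ ?_ <;> refine (ZMod.intCast_zmod_eq_zero_iff_dvd _ _).mp ?_
  · exact Gamma0_mem.mp (mul_mem (mul_mem hδ (Gamma1_in_Gamma0 _ hγ)) (inv_mem hδ))
  · simp [Matrix.SpecialLinearGroup.coe_inv, Matrix.adjugate_fin_two, Matrix.mul_apply,
      Fin.sum_univ_two, h1, h2, h3, hc]
    linear_combination hd

/-- At a prime away from the level the diamond acts by the character. -/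
theorem slash_diaRep (hT : ∀ p : ℕ, p.Prime → ¬ p ∣ N → ∀ n : ℕ,
      qCoeff f (p * n) + ε (p : ZMod N) * (if p ∣ n then qCoeff f (n / p) else 0) =
        qCoeff f p * qCoeff f n)
    {p : ℕ} (hp : p.Prime) (hpN : ¬ p ∣ N) {δ : SL(2, ℤ)} (hδ : IsDiaRep N p δ) :
    (⇑f : ℍ → ℂ) ∣[(1 : ℤ)] δ = ε (p : ZMod N) • (⇑f : ℍ → ℂ) := by
  set F : ℍ → ℂ := ⇑f
  have hF : MF.IsCuspFn (Gamma1 N) 1 F := MF.isCuspFn_coe f
  have hsl : ∀ γ ∈ Gamma1 N, F ∣[(1 : ℤ)] γ = F := hF.form.slash_eq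
  have hT1 : ModularGroup.T ∈ Gamma1 N := by simp [ModularGroup.coe_T]
  have hFq : MF.IsQFn F := hF.form.isQFn hT1
  have hper : Function.Periodic (F ∘ ofComplex) (1 : ℂ) := by simpa using hFq.periodic
  have hU : MF.IsQFn (ModularForm.heckeU 1 p F) :=
    ⟨by simpa using ModularForm.periodic_heckeU_comp_ofComplex hper 1 p,
      ModularForm.mdifferentiable_heckeU hFq.mdiff 1 p,
      ModularForm.isBoundedAtImInfty_heckeU hFq.bdd 1 p⟩
  have hTq : MF.IsQFn (ModularForm.heckeT 1 p F) :=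
    ⟨by simpa using ModularForm.periodic_heckeT_comp_ofComplex hper 1 p,
      ModularForm.mdifferentiable_heckeT hFq.mdiff 1 p,
      ModularForm.isBoundedAtImInfty_heckeT hFq.bdd 1 p⟩
  set e : ℂ := ε (p : ZMod N)
  set a : ℂ := qCoeff F p
  set D : ℍ → ℂ := F ∣[(1 : ℤ)] ModularForm.heckeDiagMatrix p
  have hD : D = ModularForm.heckeT 1 p F - ModularForm.heckeU 1 p F := by
    rw [ModularForm.heckeT_eq_heckeU_add, add_sub_cancel_left]
  have hDq : MF.IsQFn D := hD ▸ hTq.sub hU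
  -- the eigen equation as an identity of functions
  have heq : ModularForm.heckeU 1 p F + e • D = a • F := by
    refine eq_of_qCoeff (hU.add (hDq.smul e)) (hFq.smul a) fun n => ?_
    rw [qCoeff_add' hU (hDq.smul e), qCoeff_smul' hDq, qCoeff_smul' hFq, hD,
      qCoeff_sub' hTq hU, qCoeff_heckeT hper hFq.mdiff hFq.bdd 1 hp.ne_zero,
      qCoeff_heckeU hper hFq.mdiff hFq.bdd 1 hp.ne_zero,
      ModularForm.coeffHeckeT_eq_coeffHeckeU_add, add_sub_cancel_left,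
      ModularForm.coeffHeckeU_apply, mul_comm n p]
    simpa using hT p hp hpN n
  set h : ℍ → ℂ := F ∣[(1 : ℤ)] δ - e • F
  set P : ℍ → ℂ := ∑ i, F ∣[(1 : ℤ)] repGL p δ i with hP
  have hGP : h ∣[(1 : ℤ)] ModularForm.heckeDiagMatrix p = P - a • F := by
    have e1 : P = ModularForm.heckeU 1 p F +
        (F ∣[(1 : ℤ)] δ) ∣[(1 : ℤ)] ModularForm.heckeDiagMatrix p := by
      rw [hP, Fintype.sum_option, ModularForm.heckeU_def, Finset.sum_range, add_comm]
      simp only [repGL, SlashAction.slash_mul, ModularForm.SL_slash]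
    rw [e1, ← heq, slash_sub, ModularForm.smul_slash, ModularForm.σ_heckeDiagMatrix,
      ContinuousAlgEquiv.refl_apply]
    abel
  -- invariance
  have hΓ : ∀ γ ∈ Gamma1 (N ^ 2),
      (h ∣[(1 : ℤ)] ModularForm.heckeDiagMatrix p) ∣[(1 : ℤ)] γ =
        h ∣[(1 : ℤ)] ModularForm.heckeDiagMatrix p := by
    intro γ hγ
    have hγ0 : γ ∈ Gamma0 (N ^ 2) := Gamma1_in_Gamma0 _ hγ
    obtain ⟨π, c, hπ, hc⟩ := exists_steps hp hpN hδ hγ0
    have hPγ : P ∣[(1 : ℤ)] γ = P := by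
      rw [hP, SlashAction.sum_slash]
      conv_rhs => rw [← (Equiv.ofBijective π hπ).sum_comp]
      refine Finset.sum_congr rfl fun i _ => ?_
      obtain ⟨hc0, hc1, hc2⟩ := hc i
      have hcN : c i ∈ Gamma1 N := by
        refine mem_Gamma1_of_dvd ?_ ?_
        · exact (dvd_pow_self _ two_ne_zero).trans (dvd_apply_one_zero hc0)
        · refine (ZMod.intCast_zmod_eq_zero_iff_dvd _ _).mp ?_
          push_cast
          rw [hc1, ((Gamma1_mem N γ).mp (mem_Gamma1_of_sq hγ)).2.1, sub_self]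
      rw [ModularForm.SL_slash, ← SlashAction.slash_mul, repGL_mul hp.ne_zero hc2,
        SlashAction.slash_mul, ← ModularForm.SL_slash, hsl _ hcN]
      rfl
    rw [hGP, slash_sub_SL, ModularForm.SL_smul_slash, hPγ,
      hsl γ (mem_Gamma1_of_sq hγ)]
  have hδ0 : δ ∈ Gamma0 N := MF.Gamma0_le_of_dvd (dvd_pow_self N two_ne_zero) hδ.1
  have hFδ : ∀ γ ∈ Gamma1 N, (F ∣[(1 : ℤ)] δ) ∣[(1 : ℤ)] γ = F ∣[(1 : ℤ)] δ := fun γ hγ => by
    have hm : δ * γ * δ⁻¹ ∈ Gamma1 N := conj_mem_Gamma1 hδ0 hγ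
    rw [← SlashAction.slash_mul, show δ * γ = δ * γ * δ⁻¹ * δ by group, SlashAction.slash_mul,
      hsl _ hm]
  have hh : h = 0 := by
    refine eq_zero_of_dilation_invariant hp (L := N ^ 2)
      (fun hd => hpN (hp.dvd_of_dvd_pow hd)) ?_ ?_ (fun γ hγ => ?_) hΓ
    · exact (MF.IsFormFn.mk (fun γ hγ => hFδ γ hγ) (hF.form.mdiff.slash 1 _)
        (fun γ => by rw [← SlashAction.slash_mul]; exact hF.form.bdd _) :
          MF.IsFormFn (Gamma1 N) 1 _).isQFn hT1 |>.sub (hFq.smul e)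
    · have z1 := hF.zero δ
      have z2 := hF.zero 1
      rw [SlashAction.slash_one] at z2
      have := Filter.Tendsto.add z1 (Filter.Tendsto.const_mul (-e) z2)
      simpa [h, sub_eq_add_neg, IsZeroAtImInfty, ZeroAtFilter, Pi.add_def] using this
    · rw [slash_sub_SL, ModularForm.SL_smul_slash, hFδ γ (mem_Gamma1_of_sq hγ),
        hsl γ (mem_Gamma1_of_sq hγ)]
  exact sub_eq_zero.mp hh

/-- The coefficient relations give the eigenform with its character. -/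
theorem isEigen_of (ε : DirichletCharacter ℂ N) (f : CuspForm (Gamma1 N) 1)
    (h1 : qCoeff f 1 = 1)
    (hT : ∀ p : ℕ, p.Prime → ¬ p ∣ N → ∀ n : ℕ,
      qCoeff f (p * n) + ε (p : ZMod N) * (if p ∣ n then qCoeff f (n / p) else 0) =
        qCoeff f p * qCoeff f n) : IsEigen ε f := by
  refine ⟨h1, hT, fun γ hγ => ?_⟩
  have hc : (γ 1 0 : ZMod N) = 0 := Gamma0_mem.mp hγ
  have hdet := γ.2
  rw [Matrix.det_fin_two] at hdet
  have hdet' := congrArg (Int.cast : ℤ → ZMod N) hdet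
  push_cast at hdet'
  rw [hc, mul_zero, sub_zero] at hdet'
  obtain ⟨p, hbig, hp, hpγ⟩ := Nat.forall_exists_prime_gt_and_eq_mod
    (IsUnit.of_mul_eq_one_right _ hdet') N
  have hpN : ¬ p ∣ N := fun h => absurd (Nat.le_of_dvd (NeZero.pos N) h) (by omega)
  obtain ⟨δ, hδ⟩ := exists_isDiaRep N ((hp.coprime_iff_not_dvd).mpr hpN)
  have hδ0 : δ ∈ Gamma0 N := MF.Gamma0_le_of_dvd (dvd_pow_self N two_ne_zero) hδ.1
  have hm : γ * δ⁻¹ ∈ Gamma1 N := by
    refine mem_Gamma1_of_dvd ?_ ?_ <;> refine (ZMod.intCast_zmod_eq_zero_iff_dvd _ _).mp ?_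
    · exact Gamma0_mem.mp (mul_mem hγ (inv_mem hδ0))
    · have e : ((γ * δ⁻¹) 1 1 : ℤ) = -(γ 1 0 * δ 0 1) + γ 1 1 * δ 0 0 := by
        simp [Matrix.SpecialLinearGroup.coe_inv, Matrix.adjugate_fin_two, Matrix.mul_apply,
          Fin.sum_univ_two]
      have hd1 := δ.2
      rw [Matrix.det_fin_two] at hd1
      have hd2 := congrArg (Int.cast : ℤ → ZMod N) hd1
      push_cast at hd2
      rw [show (δ 1 0 : ZMod N) = 0 from Gamma0_mem.mp hδ0, hδ.2, hpγ] at hd2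
      rw [Int.cast_sub, e]
      push_cast
      rw [hc]
      linear_combination hd2
  have h := slash_diaRep hT hp hpN hδ
  rw [show γ = γ * δ⁻¹ * δ by group, SlashAction.slash_mul,
    (MF.isCuspFn_coe f).form.slash_eq _ hm, h, hpγ]
  simp

end Fermat.Agent.WeightOneGalois
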