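import Mathlib.FieldTheory.AbsoluteGaloisGroup
import Fermat.Agent.WeightOneGalois.Chebotarev.Cross

/-!
# Consequences of the one-sided Chebotarev theorem

For a finite Galois level `N`: an upper bound on the prime sum of a class function bounds its mean,
and a class property failing at every Frobenius fails everywhere. Used in `Analytic/Main` to bound
the images of the representations modulo `ℓ` and to compare them.
-/

noncomputable section

namespace Fermat.Agent.WeightOneGalois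

open Filter Topology
open Gal (AbsGal)
open scoped Classical

local notation "Qbar" => AlgebraicClosure ℚ

theorem exists_place_frob (ℓ : Nat.Primes) : ∃ x : ValuationSubring Qbar × AbsGal,
    x.1.LiesOverPrime ℓ ∧ x.1.IsFrobeniusAt x.2 ℓ := by
  obtain ⟨A, hA⟩ := Gal.exists_liesOverPrime ℓ.2
  obtain ⟨σ, hσ⟩ := Gal.exists_isFrobeniusAt ℓ.2 hA
  exact ⟨(A, σ), hA, hσ⟩

/-- A fixed place above each prime. -/
def placeAt (ℓ : Nat.Primes) : ValuationSubring Qbar := (exists_place_frob ℓ).choose.1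

/-- A fixed Frobenius element at each prime. -/
def frobAt (ℓ : Nat.Primes) : AbsGal := (exists_place_frob ℓ).choose.2

theorem placeAt_liesOverPrime (ℓ : Nat.Primes) : (placeAt ℓ).LiesOverPrime ℓ :=
  (exists_place_frob ℓ).choose_spec.1

theorem frobAt_isFrobeniusAt (ℓ : Nat.Primes) : (placeAt ℓ).IsFrobeniusAt (frobAt ℓ) ℓ :=
  (exists_place_frob ℓ).choose_spec.2

/-- Changing finitely many weights, an inequality of weights bounds the prime sums. -/
theorem exists_pSum_le {u v : Nat.Primes → ℝ} (hu : Bd u) (hv : Bd v) (S : Finset ℕ)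
    (h : ∀ ℓ : Nat.Primes, (ℓ : ℕ) ∉ S → u ℓ ≤ v ℓ) :
    ∃ C : ℝ, ∀ᶠ s in 𝓝[>] (1 : ℝ), pSum u s ≤ pSum v s + C := by
  let w : Nat.Primes → ℝ := fun ℓ => if (ℓ : ℕ) ∈ S then u ℓ else v ℓ
  have hw : Bd w := by
    obtain ⟨A, hA⟩ := hu
    obtain ⟨B, hB⟩ := hv
    refine ⟨max A B, fun ℓ => ?_⟩
    show |if (ℓ : ℕ) ∈ S then u ℓ else v ℓ| ≤ _
    split_ifs
    · exact (hA ℓ).trans (le_max_left _ _)
    · exact (hB ℓ).trans (le_max_right _ _)
  obtain ⟨C, hC⟩ := exists_pSum_congr hw hv S fun ℓ hℓ => if_neg hℓ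
  refine ⟨C, ?_⟩
  filter_upwards [hC, self_mem_nhdsWithin] with s h1 hs
  have h2 : pSum u s ≤ pSum w s := pSum_mono hu hw (fun ℓ => by
    show u ℓ ≤ if (ℓ : ℕ) ∈ S then u ℓ else v ℓ
    split_ifs with h'
    · exact le_rfl
    · exact h ℓ h') hs
  linarith [(abs_le.mp h1).2]

variable (N : IntermediateField ℚ Qbar) [FiniteDimensional ℚ N] [IsGalois ℚ N]

theorem bd_frobFun (F : Gal(N/ℚ) → ℝ) :
    Bd fun ℓ => F (AlgEquiv.restrictNormalHom N (frobAt ℓ)) :=
  ⟨∑ x, |F x|, fun _ => Finset.single_le_sum (f := fun x => |F x|) (fun _ _ => abs_nonneg _)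
    (Finset.mem_univ _)⟩

/-- An upper bound for the prime sum bounds the mean. -/
theorem mean_le (F : Gal(N/ℚ) → ℝ) (h0 : ∀ x, 0 ≤ F x) (hconj : ∀ h x, F (h⁻¹ * x * h) = F x)
    (hinv : ∀ x, F x⁻¹ = F x) {v : Nat.Primes → ℝ} (hv : Bd v) (S : Finset ℕ)
    (hle : ∀ ℓ : Nat.Primes, (ℓ : ℕ) ∉ S → F (AlgEquiv.restrictNormalHom N (frobAt ℓ)) ≤ v ℓ)
    {c C : ℝ} (hup : ∀ᶠ s in 𝓝[>] (1 : ℝ), pSum v s ≤ c * logPole s + C) :
    3 / 4 * ((∑ x, F x) / Nat.card Gal(N/ℚ)) ≤ c := by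
  obtain ⟨C₁, h1⟩ := chebotarev_lower N placeAt_liesOverPrime frobAt_isFrobeniusAt F h0 hconj hinv
  obtain ⟨C₂, h2⟩ := exists_pSum_le (bd_frobFun N F) hv S hle
  set b := 3 / 4 * ((∑ x, F x) / Nat.card Gal(N/ℚ))
  by_contra hlt
  push Not at hlt
  obtain ⟨s, ha, hb, hc, hd⟩ :=
    (h1.and (h2.and
        (hup.and (tendsto_logPole.eventually_gt_atTop ((C₁ + C₂ + C) / (b - c)))))).exists
  rw [div_lt_iff₀ (by linarith)] at hd
  linarith

/-- A property invariant under conjugation and inversion that fails at all but finitely many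
Frobenius elements fails everywhere. -/
theorem not_of_frobenius (P : Gal(N/ℚ) → Prop) (hconj : ∀ h x, P (h⁻¹ * x * h) ↔ P x)
    (hinv : ∀ x, P x⁻¹ ↔ P x) (S : Finset ℕ)
    (h : ∀ ℓ : Nat.Primes, (ℓ : ℕ) ∉ S → ¬ P (AlgEquiv.restrictNormalHom N (frobAt ℓ))) (x) :
    ¬ P x := by
  intro hx
  set F : Gal(N/ℚ) → ℝ := fun y => if P y then 1 else 0 with hF
  have hmean := mean_le N F (fun y => by simp only [hF]; split_ifs <;> norm_num)
    (fun a y => by simp only [hF, hconj]) (fun y => by simp only [hF, hinv])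
    (v := fun _ => 0) ⟨0, fun _ => by simp⟩ S
        (fun ℓ hℓ => by simp only [hF, if_neg (h ℓ hℓ), le_refl])
    (c := 0) (C := 0) (Eventually.of_forall fun s => by simp [pSum])
  have h1 : (1 : ℝ) ≤ ∑ y, F y := le_trans (by simp [hF, hx])
    (Finset.single_le_sum (f := F) (fun y _ => by simp only [hF]; split_ifs <;> norm_num)
      (Finset.mem_univ x))
  have h2 : (0 : ℝ) < (∑ y, F y) / Nat.card Gal(N/ℚ) :=
    div_pos (by linarith) (Nat.cast_pos.mpr Nat.card_pos)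
  linarith

omit [FiniteDimensional ℚ ↥N] in
/-- A homomorphism trivial on `Gal(ℚ̄/N)` factors through `Gal(N/ℚ)`. -/
theorem exists_descend {M : Type} [Group M] (ρ : AbsGal →* M)
    (h : ∀ σ : AbsGal, (∀ x ∈ N, σ x = x) → ρ σ = 1) :
    ∃ ρN : Gal(N/ℚ) →* M, ∀ σ, ρN (AlgEquiv.restrictNormalHom N σ) = ρ σ := by
  have hker : (AlgEquiv.restrictNormalHom N : AbsGal →* Gal(N/ℚ)).ker ≤ ρ.ker := fun σ hσ => by
    rw [MonoidHom.mem_ker] at hσ ⊢
    refine h σ fun x hx => ?_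
    exact ((σ.restrictNormal_commutes N ⟨x, hx⟩).symm.trans
      (congrArg (fun τ : Gal(N/ℚ) => algebraMap N Qbar (τ ⟨x, hx⟩)) hσ))
  exact ⟨(AlgEquiv.restrictNormalHom N : AbsGal →* Gal(N/ℚ)).liftOfSurjective
    (AlgEquiv.restrictNormalHom_surjective (K₁ := N) Qbar) ⟨ρ, hker⟩,
    fun σ => MonoidHom.liftOfRightInverse_comp_apply _ _ _ _ σ⟩

/-- A finite level may be enlarged to a Galois one. -/
theorem exists_galois_level {M : Type} [MulOneClass M] (ρ : AbsGal →* M)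
    (h : GaloisFactorsThroughFiniteLevel ρ) : ∃ N : IntermediateField ℚ Qbar,
      FiniteDimensional ℚ N ∧ IsGalois ℚ N ∧ ∀ σ : AbsGal, (∀ x ∈ N, σ x = x) → ρ σ = 1 := by
  obtain ⟨L, hL, hρ⟩ := h
  have : IsAlgClosure ℚ Qbar := ⟨inferInstance, AlgebraicClosure.isAlgebraic ℚ⟩
  have : Normal ℚ Qbar := IsAlgClosure.normal ℚ Qbar
  have : Normal ℚ (IntermediateField.normalClosure ℚ L Qbar) := normalClosure.normal ℚ L Qbar
  exact ⟨IntermediateField.normalClosure ℚ L Qbar, inferInstance, ⟨⟩,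
    fun σ hσ => hρ σ fun x hx => hσ x (L.le_normalClosure hx)⟩

end Fermat.Agent.WeightOneGalois
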